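import Mathlib
import Fermat.Agent.S17.R.LSpace
import Fermat.Agent.S17.H.A.Abs

/-!
# S17, strand HB (route beta), leaf B4 (RED): the vocabulary

`F / K` a function field of one variable, `v₀` the base place, `ev` a value function.

* `poolPoly ev t D` : the monic polynomial `∏_P (X - t(P)) ^ (D P)` of an effective divisor `D`
  in the coordinate `t`;
* `poolSec ev t D`  : the function `∏_P (t - t(P)) ^ (D P)`; it vanishes on `D`;
* `divH ev y D`     : the `y`-height `∑_P D(P) * hQ (y(P))` of a divisor (over `Qb`);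
* `SysX`, `sysMap`  : the unknowns and the fixed linear maps of the colon system
  `σ_(j+1) * s = σ_0 * a_j` (`σ_l = poolSec ev (t l) D`), whose solution space is the line spanned
  by `(f σ_0, f σ_1, …)`, `div f = E - D + (deg D - deg E) v₀`, `E` the reduced divisor.
-/

set_option autoImplicit false

namespace Fermat.Agent.S17.HB.Red

open AlgebraicCurve Polynomial

section Defs

variable {K F : Type*} [Field K] [Field F] [Algebra K F]

/-- The monic polynomial `∏_P (X - t(P)) ^ (D P)` of an effective divisor `D` in the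
coordinate `t`. -/
noncomputable def poolPoly (ev : Place K F → F → K) (t : F) (D : Divisor K F) : K[X] :=
  D.prod fun P n => (X - C (ev P t)) ^ n.toNat

/-- The function `∏_P (t - t(P)) ^ (D P)`; it vanishes on `D`. -/
noncomputable def poolSec (ev : Place K F → F → K) (t : F) (D : Divisor K F) : F :=
  D.prod fun P n => (t - algebraMap K F (ev P t)) ^ n.toNat

theorem aeval_poolPoly (ev : Place K F → F → K) (t : F) (D : Divisor K F) :
    aeval t (poolPoly ev t D) = poolSec ev t D := by
  unfold poolPoly poolSec Finsupp.prod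
  rw [map_prod]
  refine Finset.prod_congr rfl fun P _ => ?_
  rw [map_pow, map_sub, aeval_X, aeval_C]

theorem poolPoly_monic (ev : Place K F → F → K) (t : F) (D : Divisor K F) :
    (poolPoly ev t D).Monic := by
  unfold poolPoly Finsupp.prod
  exact monic_prod_of_monic _ _ fun P _ => (monic_X_sub_C _).pow _

theorem natDegree_poolPoly (ev : Place K F → F → K) (t : F) (D : Divisor K F) :
    (poolPoly ev t D).natDegree = ∑ P ∈ D.support, (D P).toNat := by
  unfold poolPoly Finsupp.prod
  rw [natDegree_prod_of_monic _ _ fun P _ => (monic_X_sub_C _).pow _]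
  refine Finset.sum_congr rfl fun P _ => ?_
  rw [natDegree_pow, natDegree_X_sub_C, mul_one]

theorem poolPoly_ne_zero (ev : Place K F → F → K) (t : F) (D : Divisor K F) :
    poolPoly ev t D ≠ 0 :=
  (poolPoly_monic ev t D).ne_zero

/-- The roots of `poolPoly`: the values `t(P)`, with multiplicity `D P`. -/
theorem roots_poolPoly (ev : Place K F → F → K) (t : F) (D : Divisor K F) :
    (poolPoly ev t D).roots = ∑ P ∈ D.support, (D P).toNat • ({ev P t} : Multiset K) := by
  classical
  unfold poolPoly Finsupp.prod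
  rw [roots_prod _ _ (Finset.prod_ne_zero_iff.mpr fun P _ => pow_ne_zero _ (X_sub_C_ne_zero _))]
  change (D.support.val.map fun i => ((X - C (ev i t)) ^ (D i).toNat).roots).sum = _
  rw [← Finset.sum_eq_multiset_sum]
  refine Finset.sum_congr rfl fun P _ => ?_
  rw [roots_pow, roots_X_sub_C]

/-- `poolSec` as the polynomial `poolPoly` in `t`, coefficientwise. -/
theorem poolSec_eq_sum (ev : Place K F → F → K) (t : F) (D : Divisor K F) {d : ℕ}
    (hd : (poolPoly ev t D).natDegree ≤ d) :
    poolSec ev t D = ∑ i : Fin (d + 1), (poolPoly ev t D).coeff (i : ℕ) • t ^ (i : ℕ) := by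
  rw [← aeval_poolPoly, aeval_eq_sum_range' (Nat.lt_succ_of_le hd),
    Finset.sum_range fun i => (poolPoly ev t D).coeff i • t ^ i]

end Defs

section DefsH

local notation "Qb" => AlgebraicClosure ℚ

variable {F : Type*} [Field F] [Algebra Qb F]

/-- The `y`-height of a divisor: `∑_v D(v) * hQ (y(v))`. -/
noncomputable def divH (ev : Place Qb F → F → Qb) (y : F) (D : Divisor Qb F) : ℝ :=
  D.sum fun v n => (n : ℝ) * Fermat.Agent.S17.H.hQ (ev v y)

theorem divH_add (ev : Place Qb F → F → Qb) (y : F) (D D' : Divisor Qb F) :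
    divH ev y (D + D') = divH ev y D + divH ev y D' := by
  unfold divH
  refine Finsupp.sum_add_index' (fun v => ?_) (fun v a b => ?_)
  · simp
  · push_cast
    ring

theorem divH_nonneg (ev : Place Qb F → F → Qb) (y : F) {D : Divisor Qb F} (hD : 0 ≤ D) :
    0 ≤ divH ev y D := by
  unfold divH Finsupp.sum
  refine Finset.sum_nonneg fun v _ => mul_nonneg ?_ (Fermat.Agent.S17.H.hQ_nonneg _)
  exact_mod_cast hD v

end DefsH

section Sys

variable {K F : Type*} [Field K] [Field F] [Algebra K F]

/-- The space of unknowns of the colon system: `s ∈ L(M₂ v₀)` and `a j ∈ L(M v₀)`, `j : Fin q`. -/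
abbrev SysX (v₀ : Place K F) (q M₂ M : ℕ) : Type _ :=
  ↥(riemannRochSpace ((M₂ : ℤ) • Finsupp.single v₀ (1 : ℤ))) ×
    (Fin q → ↥(riemannRochSpace ((M : ℤ) • Finsupp.single v₀ (1 : ℤ))))

/-- The fixed linear maps of the colon system: for `σ_l = ∑_i θ (l, i) • t l ^ i`,
`∑_k θ k • sysMap k (s, a) = (σ_(j+1) * s - σ_0 * a j)_j`. -/
noncomputable def sysMap (v₀ : Place K F) {q : ℕ} (t : Fin (q + 1) → F) (d M₂ M : ℕ)
    (k : Fin (q + 1) × Fin (d + 1)) : SysX v₀ q M₂ M →ₗ[K] (Fin q → F) :=
  LinearMap.pi fun j =>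
    (if k.1 = j.succ then
        (LinearMap.mulLeft K (t k.1 ^ (k.2 : ℕ))) ∘ₗ (Submodule.subtype _) ∘ₗ
          (LinearMap.fst K _ _)
      else 0) -
    (if k.1 = 0 then
        (LinearMap.mulLeft K (t 0 ^ (k.2 : ℕ))) ∘ₗ (Submodule.subtype _) ∘ₗ
          (LinearMap.proj j) ∘ₗ (LinearMap.snd K _ _)
      else 0)

theorem sysMap_apply (v₀ : Place K F) {q : ℕ} (t : Fin (q + 1) → F) (d M₂ M : ℕ)
    (k : Fin (q + 1) × Fin (d + 1)) (u : SysX v₀ q M₂ M) (j : Fin q) :
    sysMap v₀ t d M₂ M k u j =
      (if k.1 = j.succ then t k.1 ^ (k.2 : ℕ) * (u.1 : F) else 0) -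
        (if k.1 = 0 then t 0 ^ (k.2 : ℕ) * (u.2 j : F) else 0) := by
  unfold sysMap
  rw [LinearMap.pi_apply, LinearMap.sub_apply]
  congr 1
  · split_ifs <;> simp
  · split_ifs <;> simp

/-- The colon system evaluated: `∑_k θ k • sysMap k (s, a) = (σ_(j+1) * s - σ_0 * a j)_j` with
`σ_l = ∑_i θ (l, i) • t l ^ i`. -/
theorem sum_smul_sysMap (v₀ : Place K F) {q : ℕ} (t : Fin (q + 1) → F) (d M₂ M : ℕ)
    (θ : Fin (q + 1) × Fin (d + 1) → K) (u : SysX v₀ q M₂ M) (j : Fin q) :
    (∑ k, θ k • sysMap v₀ t d M₂ M k u) j =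
      (∑ i : Fin (d + 1), θ (j.succ, i) • t j.succ ^ (i : ℕ)) * (u.1 : F) -
        (∑ i : Fin (d + 1), θ (0, i) • t 0 ^ (i : ℕ)) * (u.2 j : F) := by
  classical
  rw [Finset.sum_apply, Fintype.sum_prod_type]
  simp only [Pi.smul_apply, sysMap_apply, smul_sub, Finset.sum_sub_distrib]
  congr 1
  · rw [Finset.sum_eq_single j.succ]
    · simp only [if_true, Finset.sum_mul, smul_mul_assoc]
    · intro l _ hl
      simp [hl]
    · intro h
      exact absurd (Finset.mem_univ _) h
  · rw [Finset.sum_eq_single (0 : Fin (q + 1))]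
    · simp only [if_true, Finset.sum_mul, smul_mul_assoc]
    · intro l _ hl
      simp [hl]
    · intro h
      exact absurd (Finset.mem_univ _) h

end Sys

end Fermat.Agent.S17.HB.Red
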