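import Mathlib
import Fermat.Agent.S17.H.A.Eval
import Fermat.Agent.S17.H.LD.RankMinor
import Fermat.Agent.S17.HB.Red.Defs

/-!
# S17, strand HB (route beta), leaf B4 (RED), L1: the height of the kernel line of a linear system

`X` is a finite-dimensional space over `Qb = AlgebraicClosure ℚ` with a basis `bX`, and
`T k : X →ₗ[Qb] Y` is a finite family of linear maps.  If for a parameter `θ` the kernel of
`∑ k, θ k • T k` is the line spanned by `u ≠ 0`, then the (projective) height of the coordinate
vector of `u` is at most `C + card ι * hT θ`, with `C` depending only on `bX` and `T`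
(`exists_hT_ker_le`).

Proof.  All `T k` take their values in the finite-dimensional span `W` of the `T k (bX i)`; in
coordinates the system is a matrix `A θ = ∑ k, θ k • Mat k`.  If `z` spans the kernel and
`z i₀ ≠ 0`, the matrix without the column `i₀` is injective, so it has an invertible square
submatrix `N` (rows `e`), and by Cramer's rule `z` is proportional to the vector
`cramerVec (A θ) i₀ e` (`det N` at `i₀`, minus the determinants of `N` with one column replaced
by the column `i₀` elsewhere) - `KerHeight.exists_cramerVec`.  The entries of this vector are the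
values at `θ` of forms of degree `card ι - 1` in `θ` (`KerHeight.cramerVec_map`,
`KerHeight.isHomogeneous_cramerVec`), there are finitely many `(i₀, e)`, and the height of the
image under a family of forms is bounded by `hT_eval_le`.
-/

set_option autoImplicit false

namespace Fermat.Agent.S17.HB.Red

open Fermat.Agent.S17.H

local notation "Qb" => AlgebraicClosure ℚ

namespace KerHeight

open Matrix

section CramerVec

variable {R : Type*} [CommRing R] {m ι : Type*} [Fintype ι] [DecidableEq ι]

/-- The Cramer vector of a matrix `A` for a column `i₀` and a choice `e` of rows indexed by the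
other columns: `det N` at `i₀` and `- det (N with the column i replaced by the column i₀ of A)`
at `i ≠ i₀`, where `N` is the square submatrix of `A` with rows `e` and columns `≠ i₀`. -/
noncomputable def cramerVec (A : Matrix m ι R) (i₀ : ι) (e : {i // i ≠ i₀} → m) : ι → R :=
  fun i => if h : i = i₀ then (A.submatrix e Subtype.val).det
    else -((A.submatrix e Subtype.val).updateCol ⟨i, h⟩ (fun j => A (e j) i₀)).det

theorem cramerVec_self (A : Matrix m ι R) (i₀ : ι) (e : {i // i ≠ i₀} → m) :
    cramerVec A i₀ e i₀ = (A.submatrix e Subtype.val).det :=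
  dif_pos rfl

theorem cramerVec_of_ne (A : Matrix m ι R) (i₀ : ι) (e : {i // i ≠ i₀} → m) {i : ι}
    (h : i ≠ i₀) :
    cramerVec A i₀ e i =
      -((A.submatrix e Subtype.val).updateCol ⟨i, h⟩ (fun j => A (e j) i₀)).det :=
  dif_neg h

/-- The Cramer vector commutes with ring homomorphisms. -/
theorem cramerVec_map {S : Type*} [CommRing S] (f : R →+* S) (A : Matrix m ι R) (i₀ : ι)
    (e : {i // i ≠ i₀} → m) (i : ι) :
    cramerVec (A.map f) i₀ e i = f (cramerVec A i₀ e i) := by
  by_cases h : i = i₀
  · subst h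
    rw [cramerVec_self, cramerVec_self, RingHom.map_det]
    rfl
  · rw [cramerVec_of_ne _ _ _ h, cramerVec_of_ne _ _ _ h, map_neg, RingHom.map_det,
      RingHom.mapMatrix_apply, Matrix.map_updateCol]
    rfl

/-- The determinant of a square matrix of linear forms is a form of degree the size. -/
theorem isHomogeneous_det {κ : Type*} {n : Type*} [Fintype n] [DecidableEq n]
    (M : Matrix n n (MvPolynomial κ R)) (hM : ∀ i j, (M i j).IsHomogeneous 1) :
    M.det.IsHomogeneous (Fintype.card n) := by
  rw [Matrix.det_apply]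
  refine MvPolynomial.IsHomogeneous.sum _ _ _ fun τ _ => ?_
  have hp : (∏ i, M (τ i) i).IsHomogeneous (Fintype.card n) := by
    have h := MvPolynomial.IsHomogeneous.prod Finset.univ (fun i => M (τ i) i) (fun _ => 1)
      (fun i _ => hM _ _)
    simpa using h
  rcases Int.units_eq_one_or (Equiv.Perm.sign τ) with h | h
  · rw [h, one_smul]
    exact hp
  · rw [h, Units.neg_smul, one_smul]
    exact hp.neg

/-- The entries of the Cramer vector of a matrix of linear forms are forms of degree the number
of the other columns. -/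
theorem isHomogeneous_cramerVec {κ : Type*} (A : Matrix m ι (MvPolynomial κ R))
    (hA : ∀ r i, (A r i).IsHomogeneous 1) (i₀ : ι) (e : {i // i ≠ i₀} → m) (i : ι) :
    (cramerVec A i₀ e i).IsHomogeneous (Fintype.card {i // i ≠ i₀}) := by
  by_cases h : i = i₀
  · subst h
    rw [cramerVec_self]
    exact isHomogeneous_det _ fun a b => hA _ _
  · rw [cramerVec_of_ne _ _ _ h]
    refine (isHomogeneous_det _ fun a b => ?_).neg
    rw [Matrix.updateCol_apply]
    split_ifs
    · exact hA _ _
    · exact hA _ _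

end CramerVec

/-- **Cramer's rule for a kernel line.**  If the kernel of the matrix `A` over a field is the
line spanned by `z ≠ 0`, then `z` is a non-zero multiple of a Cramer vector of `A`. -/
theorem exists_cramerVec {K : Type*} [Field K] {m ι : Type*} [Fintype m] [Fintype ι]
    [DecidableEq ι] (A : Matrix m ι K) (z : ι → K) (hz : z ≠ 0) (hAz : A *ᵥ z = 0)
    (hker : ∀ x : ι → K, A *ᵥ x = 0 → ∃ μ : K, x = μ • z) :
    ∃ (i₀ : ι) (e : {i // i ≠ i₀} → m) (c : K), c ≠ 0 ∧ z = c • cramerVec A i₀ e := by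
  classical
  obtain ⟨i₀, hi₀⟩ : ∃ i₀, z i₀ ≠ 0 := by
    by_contra hcon
    exact hz (funext fun i => by_contra fun h => hcon ⟨i, h⟩)
  -- the matrix without the column `i₀`
  let A' : Matrix m {i // i ≠ i₀} K := A.submatrix id Subtype.val
  have hsplit : ∀ (x : ι → K) (r : m),
      (A *ᵥ x) r = A r i₀ * x i₀ + (A' *ᵥ fun j => x j.1) r := by
    intro x r
    simp only [Matrix.mulVec, dotProduct]
    rw [Fintype.sum_eq_add_sum_subtype_ne _ i₀]
    rfl
  have hinj : Function.Injective A'.mulVecLin := by
    rw [← LinearMap.ker_eq_bot, LinearMap.ker_eq_bot']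
    intro x' hx'
    have hx'' : A' *ᵥ x' = 0 := hx'
    let x : ι → K := fun i => if h : i = i₀ then 0 else x' ⟨i, h⟩
    have hxr : (fun j : {i // i ≠ i₀} => x j.1) = x' := by
      funext j
      show (if h : j.1 = i₀ then 0 else x' ⟨j.1, h⟩) = x' j
      rw [dif_neg j.2]
    have hx0 : x i₀ = 0 := dif_pos rfl
    have hAx : A *ᵥ x = 0 := by
      funext r
      rw [hsplit x r, hx0, mul_zero, zero_add, hxr, hx'']
    obtain ⟨μ, hμ⟩ := hker x hAx
    have hμ0 : μ = 0 := by
      have h1 := congrFun hμ i₀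
      rw [hx0, Pi.smul_apply, smul_eq_mul] at h1
      rcases mul_eq_zero.mp h1.symm with h | h
      · exact h
      · exact absurd h hi₀
    rw [hμ0, zero_smul] at hμ
    rw [← hxr, hμ]
    rfl
  have hrank : A'.rank = Fintype.card {i // i ≠ i₀} := by
    rw [Matrix.rank, LinearMap.finrank_range_of_inj hinj, Module.finrank_fintype_fun_eq_card]
  obtain ⟨e₁, e₂, hdet⟩ := LD.RKM.exists_submatrix_det_ne_zero A' hrank
  have he₂inj : Function.Injective e₂ := by
    intro a b hab
    by_contra hne
    exact hdet (Matrix.det_zero_of_column_eq hne fun r => by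
      rw [Matrix.submatrix_apply, Matrix.submatrix_apply, hab])
  have he₂bij : Function.Bijective e₂ := by
    rw [Fintype.bijective_iff_injective_and_card]
    exact ⟨he₂inj, Fintype.card_fin _⟩
  let σ : Fin (Fintype.card {i // i ≠ i₀}) ≃ {i // i ≠ i₀} := Equiv.ofBijective e₂ he₂bij
  have hσ : ∀ j, e₂ (σ.symm j) = j := fun j => σ.apply_symm_apply j
  let e : {i // i ≠ i₀} → m := fun j => e₁ (σ.symm j)
  let N : Matrix {i // i ≠ i₀} {i // i ≠ i₀} K := A.submatrix e Subtype.val
  have hNeq : N = (A'.submatrix e₁ e₂).submatrix σ.symm σ.symm := by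
    ext a b
    show A (e a) b.1 = A (e₁ (σ.symm a)) (e₂ (σ.symm b)).1
    rw [hσ b]
  have hNdet : N.det ≠ 0 := by
    rw [hNeq, Matrix.det_submatrix_equiv_self]
    exact hdet
  let b : {i // i ≠ i₀} → K := fun j => A (e j) i₀
  let z' : {i // i ≠ i₀} → K := fun j => z j.1
  have hrow : ∀ j, (N *ᵥ z') j = -(z i₀ * b j) := by
    intro j
    have h1 := congrFun hAz (e j)
    rw [hsplit z (e j), Pi.zero_apply] at h1
    have h2 : (A' *ᵥ fun j => z j.1) (e j) = (N *ᵥ z') j := rfl
    rw [h2] at h1
    show (N *ᵥ z') j = -(z i₀ * A (e j) i₀)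
    linear_combination h1
  have hkey : N.det • z' + z i₀ • Matrix.cramer N b = 0 := by
    apply Matrix.eq_zero_of_mulVec_eq_zero hNdet
    rw [Matrix.mulVec_add, Matrix.mulVec_smul, Matrix.mulVec_smul, Matrix.mulVec_cramer]
    funext j
    simp only [Pi.add_apply, Pi.smul_apply, smul_eq_mul, Pi.zero_apply]
    rw [hrow j]
    ring
  refine ⟨i₀, e, z i₀ / N.det, div_ne_zero hi₀ hNdet, ?_⟩
  funext i
  rw [Pi.smul_apply, smul_eq_mul]
  by_cases h : i = i₀
  · subst h
    rw [cramerVec_self]
    show z i = z i / N.det * N.det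
    rw [div_mul_cancel₀ _ hNdet]
  · rw [cramerVec_of_ne _ _ _ h]
    have h3 := congrFun hkey ⟨i, h⟩
    simp only [Pi.add_apply, Pi.smul_apply, smul_eq_mul, Pi.zero_apply, Matrix.cramer_apply] at h3
    show z i = z i₀ / N.det * -(N.updateCol ⟨i, h⟩ b).det
    have h4 : z i = z' ⟨i, h⟩ := rfl
    rw [h4, div_mul_eq_mul_div, eq_div_iff hNdet]
    linear_combination h3

end KerHeight

open KerHeight Matrix in
/-- **(L1) The height of the kernel line.**  If the kernel of `∑ k, θ k • T k` is the line
spanned by `u ≠ 0`, the height of the coordinate vector of `u` is at most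
`C + card ι * hT θ`, with `C` independent of `θ` and `u`. -/
theorem exists_hT_ker_le {X Y : Type*} [AddCommGroup X] [Module Qb X] [AddCommGroup Y]
    [Module Qb Y] {ι κ : Type*} [Fintype ι] [Fintype κ] (bX : Module.Basis ι Qb X)
    (T : κ → X →ₗ[Qb] Y) :
    ∃ C : ℝ, ∀ (θ : κ → Qb) (u : X), u ≠ 0 → (∑ k, θ k • T k u = 0) →
      (∀ u' : X, (∑ k, θ k • T k u' = 0) → ∃ μ : Qb, u' = μ • u) →
      hT (fun i => bX.repr u i) ≤ C + (Fintype.card ι : ℝ) * hT θ := by
  classical
  -- the finite-dimensional space of values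
  let W : Submodule Qb Y := Submodule.span Qb (Set.range fun p : κ × ι => T p.1 (bX p.2))
  haveI : Module.Finite Qb W := Module.Finite.span_of_finite Qb (Set.finite_range _)
  have hTW : ∀ k x, T k x ∈ W := by
    intro k x
    rw [← bX.sum_repr x, map_sum]
    refine Submodule.sum_mem _ fun i _ => ?_
    rw [map_smul]
    exact Submodule.smul_mem _ _ (Submodule.subset_span ⟨(k, i), rfl⟩)
  let T' : κ → X →ₗ[Qb] W := fun k => (T k).codRestrict W (hTW k)
  have hT' : ∀ (θ : κ → Qb) (u' : X),
      (((∑ k, θ k • T' k) u' : W) : Y) = ∑ k, θ k • T k u' := by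
    intro θ u'
    rw [LinearMap.sum_apply, Submodule.coe_sum]
    refine Finset.sum_congr rfl fun k _ => ?_
    rfl
  let bW := Module.finBasis Qb W
  let Mat : κ → Matrix (Fin (Module.finrank Qb W)) ι Qb := fun k =>
    LinearMap.toMatrix bX bW (T' k)
  -- the generic matrix of linear forms
  let G : Matrix (Fin (Module.finrank Qb W)) ι (MvPolynomial κ Qb) := fun r i =>
    ∑ k, MvPolynomial.C (Mat k r i) * MvPolynomial.X k
  have hG : ∀ r i, (G r i).IsHomogeneous 1 := fun r i =>
    MvPolynomial.IsHomogeneous.sum _ _ _ fun k _ => MvPolynomial.isHomogeneous_C_mul_X _ _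
  have hGθ : ∀ θ : κ → Qb, G.map (MvPolynomial.eval θ) = ∑ k, θ k • Mat k := by
    intro θ
    ext r i
    rw [Matrix.map_apply, Matrix.sum_apply]
    show MvPolynomial.eval θ (∑ k, MvPolynomial.C (Mat k r i) * MvPolynomial.X k) = _
    rw [map_sum]
    refine Finset.sum_congr rfl fun k _ => ?_
    rw [map_mul, MvPolynomial.eval_C, MvPolynomial.eval_X, Matrix.smul_apply, smul_eq_mul,
      mul_comm]
  -- the matrix of the system in coordinates
  have hAθ : ∀ (θ : κ → Qb) (u' : X),
      (∑ k, θ k • Mat k) *ᵥ (fun i => bX.repr u' i) = fun r => bW.repr ((∑ k, θ k • T' k) u') r := by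
    intro θ u'
    have h1 : (∑ k, θ k • Mat k) = LinearMap.toMatrix bX bW (∑ k, θ k • T' k) := by
      rw [map_sum]
      refine Finset.sum_congr rfl fun k _ => ?_
      rw [map_smul]
    rw [h1]
    exact LinearMap.toMatrix_mulVec_repr bX bW _ u'
  -- one constant for each choice of a column and of rows
  have hC : ∀ (i₀ : ι) (e : {i // i ≠ i₀} → Fin (Module.finrank Qb W)), ∃ C : ℝ,
      ∀ θ : κ → Qb, hT (fun i => MvPolynomial.eval θ (cramerVec G i₀ e i)) ≤
        C + (Fintype.card {i // i ≠ i₀} : ℕ) * hT θ := fun i₀ e =>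
    hT_eval_le (fun i => cramerVec G i₀ e i) (fun i => isHomogeneous_cramerVec G hG i₀ e i)
  choose Cf hCf using hC
  refine ⟨∑ p : (Σ i₀ : ι, {i // i ≠ i₀} → Fin (Module.finrank Qb W)), |Cf p.1 p.2|, ?_⟩
  intro θ u hu hθu hker
  set z : ι → Qb := fun i => bX.repr u i with hz
  have hz0 : z ≠ 0 := by
    intro h0
    apply hu
    apply bX.repr.injective
    rw [map_zero]
    ext i
    exact congrFun h0 i
  have hzero : ∀ u' : X, (∑ k, θ k • T k u' = 0) ↔ (∑ k, θ k • Mat k) *ᵥ (fun i => bX.repr u' i) = 0 := by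
    intro u'
    rw [hAθ θ u']
    constructor
    · intro h
      have h1 : (∑ k, θ k • T' k) u' = 0 := Subtype.ext (by rw [hT' θ u', h]; rfl)
      rw [h1, map_zero]
      rfl
    · intro h
      have h1 : bW.repr ((∑ k, θ k • T' k) u') = 0 := by
        ext r
        exact congrFun h r
      have h2 : (∑ k, θ k • T' k) u' = 0 := bW.repr.injective (by rw [h1, map_zero])
      rw [← hT' θ u', h2]
      rfl
  have hAz : (∑ k, θ k • Mat k) *ᵥ z = 0 := (hzero u).mp hθu
  have hkerz : ∀ x : ι → Qb, (∑ k, θ k • Mat k) *ᵥ x = 0 → ∃ μ : Qb, x = μ • z := by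
    intro x hx
    have hrepr : (fun i => bX.repr (bX.equivFun.symm x) i) = x := by
      have h1 := bX.equivFun.apply_symm_apply x
      funext i
      exact congrFun h1 i
    have h2 : ∑ k, θ k • T k (bX.equivFun.symm x) = 0 := by
      rw [hzero, hrepr]
      exact hx
    obtain ⟨μ, hμ⟩ := hker _ h2
    refine ⟨μ, ?_⟩
    rw [← hrepr, hμ]
    funext i
    rw [map_smul]
    rfl
  obtain ⟨i₀, e, c, hc, hzc⟩ := exists_cramerVec (∑ k, θ k • Mat k) z hz0 hAz hkerz
  have hw : cramerVec (∑ k, θ k • Mat k) i₀ e =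
      fun i => MvPolynomial.eval θ (cramerVec G i₀ e i) := by
    funext i
    rw [← hGθ θ]
    exact cramerVec_map (MvPolynomial.eval θ) G i₀ e i
  have h1 : hT z = hT (fun i => MvPolynomial.eval θ (cramerVec G i₀ e i)) := by
    rw [hzc, hT_smul _ hc, hw]
  have h2 := hCf i₀ e θ
  have h3 : Cf i₀ e ≤ ∑ p : (Σ i₀ : ι, {i // i ≠ i₀} → Fin (Module.finrank Qb W)), |Cf p.1 p.2| :=
    le_trans (le_abs_self _) (Finset.single_le_sum
      (f := fun p : (Σ i₀ : ι, {i // i ≠ i₀} → Fin (Module.finrank Qb W)) => |Cf p.1 p.2|)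
      (fun p _ => abs_nonneg _) (Finset.mem_univ ⟨i₀, e⟩))
  have h4 : ((Fintype.card {i // i ≠ i₀} : ℕ) : ℝ) * hT θ ≤ (Fintype.card ι : ℝ) * hT θ :=
    mul_le_mul_of_nonneg_right (by exact_mod_cast Fintype.card_subtype_le _) (hT_nonneg θ)
  show hT z ≤ _
  rw [h1]
  linarith

end Fermat.Agent.S17.HB.Red
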