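/-
S17, strand HB (route beta), leaf B4 (RED), L2: the pool of coordinates.

`F / K` a function field of one variable over an algebraically closed field of characteristic
zero, `v₀` the base place, `b` a bound for the degree.  There is a FIXED finite pool
`t 0, …, t q` of functions regular off `v₀`, each with a pole at `v₀`, such that for every
effective divisor `D` off `v₀` of degree `≤ b` and every place `Q ≠ v₀` the sections
`σ_l = poolSec evalAt (t l) D = ∏_P (t l - t l (P)) ^ (D P)` vanish at `Q` to order `≥ D Q`, and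
one of them to order exactly `D Q`.

Proof.  `V = L((2g+1) v₀)`, `φ` a basis of `V`, `t_c = ∑ j, c ^ j • φ j` (moment curve),
`c = 0, …, q`, `q = (b + 1) * dim V`.  A proper subspace of `V` contains at most `dim V` of the
`t_c` (a nonzero functional vanishing on it gives a nonzero polynomial of degree `≤ dim V` in
`c`).  The `≤ b + 1` subspaces `bad v₀ n P Q ∩ V`, `P ∈ supp D ∪ {Q}` (`R/FibreSep`), are proper,
so some `t_c` avoids all of them: then `t_c` has a pole at `v₀`, separates `Q` from the other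
points of `D` and is a uniformiser plus a constant at `Q`.  The members of the moment curve
without pole are replaced by a fixed function with a pole (they are never the good ones).
-/
import Mathlib
import Fermat.Agent.S17.R.FibreSep
import Fermat.Agent.S17.R.Eval
import Fermat.Agent.S17.H.Glob.Eval
import Fermat.Agent.S17.HB.Red.Defs

set_option autoImplicit false

namespace Fermat.Agent.S17.HB.Red

open AlgebraicCurve Polynomial
open Fermat.Agent.S17.R Fermat.Agent.S17.H Fermat.Agent.S17.H.Glob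

namespace Pool

/-! ### The moment curve of a basis -/

section Moment

variable {K V : Type*} [Field K] [CharZero K] [AddCommGroup V] [Module K V]

/-- The moment vector `∑ j, c ^ j • φ j`. -/
noncomputable def moment {r : ℕ} (φ : Module.Basis (Fin r) K V) (c : K) : V :=
  ∑ j : Fin r, c ^ (j : ℕ) • φ j

open Classical in
/-- A proper subspace contains at most `r` of the moment vectors at the integers `0, …, m-1`. -/
theorem card_filter_moment_le {r : ℕ} (φ : Module.Basis (Fin r) K V) {W : Submodule K V}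
    (hW : W ≠ ⊤) (m : ℕ) :
    (Finset.univ.filter fun l : Fin m => moment φ ((l : ℕ) : K) ∈ W).card ≤ r := by
  classical
  obtain ⟨ℓ, hℓ0, hℓW⟩ := W.exists_le_ker_of_lt_top (lt_top_iff_ne_top.mpr hW)
  obtain ⟨p, hp⟩ : ∃ p : K[X], p = ∑ j : Fin r, C (ℓ (φ j)) * X ^ (j : ℕ) := ⟨_, rfl⟩
  have hcoeff : ∀ j₀ : Fin r, p.coeff (j₀ : ℕ) = ℓ (φ j₀) := by
    intro j₀
    rw [hp, finsetSum_coeff, Finset.sum_eq_single j₀]
    · rw [coeff_C_mul_X_pow, if_pos rfl]
    · intro j _ hj
      rw [coeff_C_mul_X_pow, if_neg (fun h => hj (Fin.ext h.symm))]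
    · intro h
      exact absurd (Finset.mem_univ _) h
  have hp0 : p ≠ 0 := by
    intro h0
    apply hℓ0
    apply φ.ext
    intro j
    rw [← hcoeff j, h0, coeff_zero, LinearMap.zero_apply]
  have hdeg : p.natDegree ≤ r := by
    rw [hp]
    refine natDegree_sum_le_of_forall_le _ _ fun j _ => ?_
    exact (natDegree_C_mul_X_pow_le _ _).trans j.2.le
  have heval : ∀ c : K, p.eval c = ℓ (moment φ c) := by
    intro c
    unfold moment
    rw [hp, eval_finsetSum, map_sum]
    refine Finset.sum_congr rfl fun j _ => ?_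
    rw [eval_mul, eval_C, eval_pow, eval_X, map_smul, smul_eq_mul, mul_comm]
  have hsub : (Finset.univ.filter fun l : Fin m => moment φ ((l : ℕ) : K) ∈ W).image
      (fun l : Fin m => ((l : ℕ) : K)) ⊆ p.roots.toFinset := by
    intro c hc
    obtain ⟨l, hl, rfl⟩ := Finset.mem_image.mp hc
    rw [Multiset.mem_toFinset, mem_roots hp0, IsRoot.def, heval]
    exact LinearMap.mem_ker.mp (hℓW (Finset.mem_filter.mp hl).2)
  have hinj : Function.Injective (fun l : Fin m => ((l : ℕ) : K)) := fun a b h =>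
    Fin.ext (Nat.cast_injective h)
  calc (Finset.univ.filter fun l : Fin m => moment φ ((l : ℕ) : K) ∈ W).card
      = ((Finset.univ.filter fun l : Fin m => moment φ ((l : ℕ) : K) ∈ W).image
          (fun l : Fin m => ((l : ℕ) : K))).card :=
        (Finset.card_image_of_injective _ hinj).symm
    _ ≤ p.roots.toFinset.card := Finset.card_le_card hsub
    _ ≤ Multiset.card p.roots := Multiset.toFinset_card_le _
    _ ≤ p.natDegree := card_roots' p
    _ ≤ r := hdeg

/-- Pigeonhole on the moment curve: finitely many proper subspaces are avoided by one of the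
moment vectors at `0, …, m-1` as soon as `#S * r < m`. -/
theorem exists_moment_notMem {r : ℕ} (φ : Module.Basis (Fin r) K V) {ι : Type*}
    (S : Finset ι) (W : ι → Submodule K V) (hW : ∀ P ∈ S, W P ≠ ⊤) {m : ℕ}
    (hm : S.card * r < m) :
    ∃ l : Fin m, ∀ P ∈ S, moment φ ((l : ℕ) : K) ∉ W P := by
  classical
  by_contra hcon
  have hcon' : ∀ l : Fin m, ∃ P, P ∈ S ∧ moment φ ((l : ℕ) : K) ∈ W P := by
    intro l
    by_contra h
    apply hcon
    refine ⟨l, fun P hP hmem => h ⟨P, hP, hmem⟩⟩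
  have hcov : (Finset.univ : Finset (Fin m)) ⊆
      S.biUnion fun P => Finset.univ.filter fun l : Fin m => moment φ ((l : ℕ) : K) ∈ W P := by
    intro l _
    obtain ⟨P, hP, hl⟩ := hcon' l
    exact Finset.mem_biUnion.mpr ⟨P, hP, Finset.mem_filter.mpr ⟨Finset.mem_univ _, hl⟩⟩
  have h1 := Finset.card_le_card hcov
  rw [Finset.card_univ, Fintype.card_fin] at h1
  have h2 : (S.biUnion fun P => Finset.univ.filter fun l : Fin m =>
      moment φ ((l : ℕ) : K) ∈ W P).card ≤ S.card * r := by
    refine Finset.card_biUnion_le.trans ?_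
    have h3 := Finset.sum_le_card_nsmul S
      (fun P => (Finset.univ.filter fun l : Fin m => moment φ ((l : ℕ) : K) ∈ W P).card) r
      (fun P hP => card_filter_moment_le φ (hW P hP) m)
    rwa [smul_eq_mul] at h3
  omega

end Moment

/-! ### Orders of the pool sections -/

section Curve

variable {K F : Type*} [Field K] [Field F] [Algebra K F]

/-- `ord` of a finite product of nonzero functions. -/
theorem ord_prod (v : Place K F) {ι : Type*} (s : Finset ι) (f : ι → F)
    (hf : ∀ i ∈ s, f i ≠ 0) : v.ord (∏ i ∈ s, f i) = ∑ i ∈ s, v.ord (f i) := by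
  classical
  induction s using Finset.induction_on with
  | empty => simp
  | insert a s ha ih =>
    rw [Finset.prod_insert ha, Finset.sum_insert ha,
      v.ord_mul (hf a (Finset.mem_insert_self a s))
        (Finset.prod_ne_zero_iff.mpr fun i hi => hf i (Finset.mem_insert_of_mem hi)),
      ih fun i hi => hf i (Finset.mem_insert_of_mem hi)]

/-- A function with a pole is not a constant. -/
theorem sub_algebraMap_ne_zero {v₀ : Place K F} {t : F} (ht0 : v₀.ord t < 0) (a : K) :
    t - algebraMap K F a ≠ 0 := by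
  intro h
  rw [sub_eq_zero.mp h, Fermat.Agent.S24.FF.ord_algebraMap] at ht0
  exact lt_irrefl _ ht0

/-- The order of a pool section at a place. -/
theorem ord_poolSec {v₀ : Place K F} {t : F} (ht0 : v₀.ord t < 0) (D : Divisor K F)
    (Q : Place K F) :
    Q.ord (poolSec Glob.evalAt t D) =
      ∑ P ∈ D.support, ((D P).toNat : ℤ) * Q.ord (t - algebraMap K F (Glob.evalAt P t)) := by
  have h := ord_prod Q D.support
    (fun P => (t - algebraMap K F (Glob.evalAt P t)) ^ (D P).toNat)
    (fun P _ => pow_ne_zero _ (sub_algebraMap_ne_zero ht0 _))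
  have h' : Q.ord (poolSec Glob.evalAt t D) =
      ∑ P ∈ D.support, Q.ord ((t - algebraMap K F (Glob.evalAt P t)) ^ (D P).toNat) := h
  rw [h']
  refine Finset.sum_congr rfl fun P _ => ?_
  exact R.FibreSep.ord_pow' Q (sub_algebraMap_ne_zero ht0 _) _

/-- Off the bad subspace of `(P, Q)`, `P ≠ Q`, the function `t - t(P)` is a unit at `Q`. -/
theorem ord_sub_eq_zero_of_notMem_bad {v₀ P Q : Place K F} {n : ℕ} (hP : P ≠ v₀)
    (hQ : Q ≠ v₀) (hPQ : P ≠ Q) {t : F}
    (ht : t ∈ riemannRochSpace ((n : ℤ) • Finsupp.single v₀ (1 : ℤ)))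
    (hbad : t ∉ R.FibreSep.bad v₀ n P Q) {a : K}
    (ha : t - algebraMap K F a = 0 ∨ 0 < P.ord (t - algebraMap K F a)) :
    Q.ord (t - algebraMap K F a) = 0 := by
  have hgL : t - algebraMap K F a ∈ riemannRochSpace ((n : ℤ) • Finsupp.single v₀ (1 : ℤ)) :=
    Submodule.sub_mem _ ht (R.FibreSep.algebraMap_mem_L v₀ n a)
  have hg0 : t - algebraMap K F a ≠ 0 := fun h0 =>
    hbad (R.FibreSep.mem_bad a (by rw [h0]; exact zero_mem _))
  have hPpos : 0 < P.ord (t - algebraMap K F a) := ha.resolve_left hg0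
  have hreg : ∀ v : Place K F, v ≠ v₀ → 0 ≤ v.ord (t - algebraMap K F a) := by
    intro v hv
    have h := (mem_L_of_ne_zero hg0).mp hgL v
    rw [R.Eval.nsmul_single_apply_of_ne hv, neg_zero] at h
    exact h
  by_contra hne
  have hQpos : 0 < Q.ord (t - algebraMap K F a) := lt_of_le_of_ne (hreg Q hQ) (Ne.symm hne)
  refine hbad (R.FibreSep.mem_bad a (R.FibreSep.mem_L_sub hgL ?_ ?_))
  · rw [R.FibreSep.two_single_apply, if_neg hP, if_neg hQ]
    rfl
  · intro _ v hv
    rw [R.FibreSep.two_single_apply]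
    have h1 := hreg v hv
    by_cases hvP : P = v
    · rw [← hvP, if_pos rfl, if_neg (fun h => hPQ h.symm)]
      omega
    · by_cases hvQ : Q = v
      · rw [← hvQ, if_neg hPQ, if_pos rfl]
        omega
      · rw [if_neg hvP, if_neg hvQ]
        omega

/-- Off the bad subspace of `(Q, Q)`, the function `t - t(Q)` is a uniformiser at `Q`. -/
theorem ord_sub_eq_one_of_notMem_bad {v₀ Q : Place K F} {n : ℕ} (hQ : Q ≠ v₀) {t : F}
    (ht : t ∈ riemannRochSpace ((n : ℤ) • Finsupp.single v₀ (1 : ℤ)))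
    (hbad : t ∉ R.FibreSep.bad v₀ n Q Q) {a : K}
    (ha : t - algebraMap K F a = 0 ∨ 0 < Q.ord (t - algebraMap K F a)) :
    Q.ord (t - algebraMap K F a) = 1 := by
  have hgL : t - algebraMap K F a ∈ riemannRochSpace ((n : ℤ) • Finsupp.single v₀ (1 : ℤ)) :=
    Submodule.sub_mem _ ht (R.FibreSep.algebraMap_mem_L v₀ n a)
  have hg0 : t - algebraMap K F a ≠ 0 := fun h0 =>
    hbad (R.FibreSep.mem_bad a (by rw [h0]; exact zero_mem _))
  have hQpos : 0 < Q.ord (t - algebraMap K F a) := ha.resolve_left hg0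
  have hreg : ∀ v : Place K F, v ≠ v₀ → 0 ≤ v.ord (t - algebraMap K F a) := by
    intro v hv
    have h := (mem_L_of_ne_zero hg0).mp hgL v
    rw [R.Eval.nsmul_single_apply_of_ne hv, neg_zero] at h
    exact h
  by_contra hne
  refine hbad (R.FibreSep.mem_bad a (R.FibreSep.mem_L_sub hgL ?_ ?_))
  · rw [R.FibreSep.two_single_apply, if_neg hQ]
    rfl
  · intro _ v hv
    rw [R.FibreSep.two_single_apply]
    have h1 := hreg v hv
    by_cases hvQ : Q = v
    · rw [← hvQ, if_pos rfl]
      omega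
    · rw [if_neg hvQ]
      omega

variable [IsAlgClosed K]

/-- The value of a function regular at `P`: `t - t(P)` vanishes at `P`. -/
theorem sub_evalAt (htr : Algebra.trdeg K F = 1) {P : Place K F} {t : F}
    (ht : t ∈ P.toValuationSubring) :
    t - algebraMap K F (Glob.evalAt P t) = 0 ∨
      0 < P.ord (t - algebraMap K F (Glob.evalAt P t)) :=
  (Glob.valuation_lt_one_iff P _).mp (Glob.isEval_evalAt htr P t ht)

/-- The support of an effective divisor has at most `deg` points. -/
theorem card_support_le_degree (htr : Algebra.trdeg K F = 1) {E : Divisor K F} (hE : 0 ≤ E) :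
    (E.support.card : ℤ) ≤ Divisor.degree E := by
  have h1 : Divisor.degree E = E.sum (fun v n => n * (v.deg : ℤ)) := by
    simp [Divisor.degree, Finsupp.liftAddHom_apply]
  rw [h1, Finsupp.sum, Finset.card_eq_sum_ones, Nat.cast_sum]
  refine Finset.sum_le_sum fun P hP => ?_
  have h0 : 0 ≤ E P := by
    have := Finsupp.le_def.mp hE P
    simpa using this
  have hne : E P ≠ 0 := Finsupp.mem_support_iff.mp hP
  rw [Fermat.Agent.S24.FF.deg_eq_one htr P]
  simp only [Nat.cast_one, mul_one]
  omega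

/-- Every pool section vanishes on `D`. -/
theorem le_ord_poolSec (htr : Algebra.trdeg K F = 1) {v₀ : Place K F} {t : F}
    (ht : t ∈ regOff v₀) (ht0 : v₀.ord t < 0) {D : Divisor K F} (hD : 0 ≤ D)
    {Q : Place K F} (hQ : Q ≠ v₀) : D Q ≤ Q.ord (poolSec Glob.evalAt t D) := by
  classical
  rw [ord_poolSec ht0 D Q]
  have hterm : ∀ P ∈ D.support,
      0 ≤ ((D P).toNat : ℤ) * Q.ord (t - algebraMap K F (Glob.evalAt P t)) := by
    intro P _
    refine mul_nonneg (Int.natCast_nonneg _) ?_
    exact Fermat.Agent.S24.FF.ord_nonneg_of_mem Q (sub_mem (ht Q hQ) (Q.algebraMap_mem' _))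
  by_cases hQs : Q ∈ D.support
  · have h1 := Finset.single_le_sum hterm hQs
    have h2 : 0 < Q.ord (t - algebraMap K F (Glob.evalAt Q t)) :=
      (sub_evalAt htr (ht Q hQ)).resolve_left (sub_algebraMap_ne_zero ht0 _)
    have h3 : 0 ≤ D Q := by
      have := Finsupp.le_def.mp hD Q
      simpa using this
    have h4 : ((D Q).toNat : ℤ) = D Q := Int.toNat_of_nonneg h3
    rw [h4] at h1
    have h5 : D Q * 1 ≤ D Q * Q.ord (t - algebraMap K F (Glob.evalAt Q t)) :=
      mul_le_mul_of_nonneg_left (by omega) h3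
    linarith
  · have h0 : D Q = 0 := Finsupp.notMem_support_iff.mp hQs
    rw [h0]
    exact Finset.sum_nonneg hterm

variable [CharZero K] [Algebra.EssFiniteType K F]

/-- A member of `L(n v₀)` off the bad subspace has a pole at `v₀`. -/
theorem ord_neg_of_notMem_bad (htr : Algebra.trdeg K F = 1) {v₀ Q : Place K F} {n : ℕ} {t : F}
    (ht : t ∈ riemannRochSpace ((n : ℤ) • Finsupp.single v₀ (1 : ℤ)))
    (hbad : t ∉ R.FibreSep.bad v₀ n Q Q) : v₀.ord t < 0 := by
  by_contra hcon
  rw [not_lt] at hcon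
  have ht0 : t ≠ 0 := by
    intro h0
    apply hbad
    rw [h0]
    exact Submodule.zero_mem _
  have hL0 : t ∈ riemannRochSpace (0 : Divisor K F) := by
    rw [mem_L_of_ne_zero ht0]
    intro v
    simp only [Finsupp.coe_zero, Pi.zero_apply, neg_zero]
    by_cases hv : v = v₀
    · rw [hv]
      exact hcon
    · have h := (mem_L_of_ne_zero ht0).mp ht v
      rw [R.Eval.nsmul_single_apply_of_ne hv, neg_zero] at h
      exact h
  obtain ⟨c, hc⟩ := (mem_L_zero_iff htr).mp hL0
  apply hbad
  rw [← hc]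
  exact R.FibreSep.mem_bad c (by rw [sub_self]; exact zero_mem _)

/-- A member of `L(n v₀)` off the bad subspaces of `(P, Q)`, `P ∈ supp D ∪ {Q}`: its pool
section vanishes at `Q` to the order `D Q` exactly. -/
theorem ord_poolSec_eq (htr : Algebra.trdeg K F = 1) {v₀ : Place K F} {n : ℕ} {t : F}
    (ht : t ∈ riemannRochSpace ((n : ℤ) • Finsupp.single v₀ (1 : ℤ))) (ht0 : v₀.ord t < 0)
    {D : Divisor K F} (hD : 0 ≤ D) (hDv : D v₀ = 0) {Q : Place K F} (hQ : Q ≠ v₀)
    (hbad : ∀ P, P ∈ D.support ∨ P = Q → t ∉ R.FibreSep.bad v₀ n P Q) :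
    Q.ord (poolSec Glob.evalAt t D) = D Q := by
  classical
  have htreg : t ∈ regOff v₀ := R.Eval.mem_regOff_of_mem_L ht
  rw [ord_poolSec ht0 D Q]
  have hsupp : ∀ P ∈ D.support, P ≠ v₀ := by
    intro P hP h
    rw [h] at hP
    exact (Finsupp.mem_support_iff.mp hP) hDv
  have hzero : ∀ P ∈ D.support, P ≠ Q →
      ((D P).toNat : ℤ) * Q.ord (t - algebraMap K F (Glob.evalAt P t)) = 0 := by
    intro P hP hPQ
    rw [ord_sub_eq_zero_of_notMem_bad (hsupp P hP) hQ hPQ ht (hbad P (Or.inl hP))
      (sub_evalAt htr (htreg P (hsupp P hP))), mul_zero]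
  by_cases hQs : Q ∈ D.support
  · rw [Finset.sum_eq_single_of_mem Q hQs hzero,
      ord_sub_eq_one_of_notMem_bad hQ ht (hbad Q (Or.inr rfl)) (sub_evalAt htr (htreg Q hQ)),
      mul_one]
    refine Int.toNat_of_nonneg ?_
    have := Finsupp.le_def.mp hD Q
    simpa using this
  · rw [Finset.sum_eq_zero fun P hP => hzero P hP (fun h => hQs (h ▸ hP))]
    exact (Finsupp.notMem_support_iff.mp hQs).symm

/-- The pool, for a given basis of `L(n v₀)`, `n = 2g + 1`. -/
theorem exists_pool_of_basis (htr : Algebra.trdeg K F = 1) (v₀ : Place K F) (b : ℕ) {n : ℕ}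
    (hn : n = 2 * gR K F + 1) {r : ℕ}
    (φ : Module.Basis (Fin r) K ↥(riemannRochSpace ((n : ℤ) • Finsupp.single v₀ (1 : ℤ)))) :
    ∃ t : Fin ((b + 1) * r + 1) → F, (∀ l, t l ∈ regOff v₀) ∧ (∀ l, v₀.ord (t l) < 0) ∧
      ∀ D : Divisor K F, 0 ≤ D → D v₀ = 0 → Divisor.degree D ≤ (b : ℤ) →
        ∀ Q : Place K F, Q ≠ v₀ →
          (∀ l, D Q ≤ Q.ord (poolSec Glob.evalAt (t l) D)) ∧
            ∃ l, Q.ord (poolSec Glob.evalAt (t l) D) = D Q := by
  classical
  obtain ⟨f₀, hf₀V, hf₀o⟩ := exists_nongap_of_ge htr v₀ (n := n) (by omega)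
  have hf₀neg : v₀.ord f₀ < 0 := by
    rw [hf₀o]
    omega
  obtain ⟨t, ht⟩ : ∃ t : Fin ((b + 1) * r + 1) → F, ∀ l, t l =
      if v₀.ord ((moment φ ((l : ℕ) : K) :
          ↥(riemannRochSpace ((n : ℤ) • Finsupp.single v₀ (1 : ℤ)))) : F) < 0
      then ((moment φ ((l : ℕ) : K) :
          ↥(riemannRochSpace ((n : ℤ) • Finsupp.single v₀ (1 : ℤ)))) : F)
      else f₀ := ⟨_, fun l => rfl⟩
  have htreg : ∀ l, t l ∈ regOff v₀ := by
    intro l
    rw [ht l]
    split_ifs
    · exact R.Eval.mem_regOff_of_mem_L (moment φ ((l : ℕ) : K)).2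
    · exact R.Eval.mem_regOff_of_mem_L hf₀V
  have htneg : ∀ l, v₀.ord (t l) < 0 := by
    intro l
    rw [ht l]
    split_ifs with h
    · exact h
    · exact hf₀neg
  refine ⟨t, htreg, htneg, ?_⟩
  intro D hD hDv hdeg Q hQ
  refine ⟨fun l => le_ord_poolSec htr (htreg l) (htneg l) hD hQ, ?_⟩
  have hS : (insert Q D.support).card * r < (b + 1) * r + 1 := by
    have h1 : (insert Q D.support).card ≤ D.support.card + 1 := Finset.card_insert_le _ _
    have h2 : (D.support.card : ℤ) ≤ Divisor.degree D := card_support_le_degree htr hD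
    have h3 : D.support.card ≤ b := by exact_mod_cast h2.trans hdeg
    have h4 : (insert Q D.support).card * r ≤ (b + 1) * r :=
      Nat.mul_le_mul_right r (by omega)
    omega
  have hne : ∀ P ∈ insert Q D.support, P ≠ v₀ := by
    intro P hP
    rcases Finset.mem_insert.mp hP with h | h
    · rw [h]
      exact hQ
    · intro h'
      rw [h'] at h
      exact (Finsupp.mem_support_iff.mp h) hDv
  have hW : ∀ P ∈ insert Q D.support,
      (R.FibreSep.bad v₀ n P Q).comap
        (riemannRochSpace ((n : ℤ) • Finsupp.single v₀ (1 : ℤ))).subtype ≠ ⊤ := by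
    intro P hP htop
    obtain ⟨f, hf, hfbad⟩ := R.FibreSep.exists_notMem_bad htr v₀ (hne P hP) hQ
    rw [← hn] at hf hfbad
    have hmem : (⟨f, hf⟩ : ↥(riemannRochSpace ((n : ℤ) • Finsupp.single v₀ (1 : ℤ)))) ∈
        (R.FibreSep.bad v₀ n P Q).comap
          (riemannRochSpace ((n : ℤ) • Finsupp.single v₀ (1 : ℤ))).subtype := by
      rw [htop]
      exact Submodule.mem_top
    exact hfbad hmem
  obtain ⟨l, hl⟩ := exists_moment_notMem φ (insert Q D.support)
    (fun P => (R.FibreSep.bad v₀ n P Q).comap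
      (riemannRochSpace ((n : ℤ) • Finsupp.single v₀ (1 : ℤ))).subtype) hW hS
  have hmem : ∀ P, P ∈ D.support ∨ P = Q →
      ((moment φ ((l : ℕ) : K) :
        ↥(riemannRochSpace ((n : ℤ) • Finsupp.single v₀ (1 : ℤ)))) : F) ∉
        R.FibreSep.bad v₀ n P Q := by
    intro P hP
    refine hl P ?_
    rcases hP with hP | hP
    · exact Finset.mem_insert_of_mem hP
    · rw [hP]
      exact Finset.mem_insert_self _ _
  have hVmem : ((moment φ ((l : ℕ) : K) :
      ↥(riemannRochSpace ((n : ℤ) • Finsupp.single v₀ (1 : ℤ)))) : F) ∈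
      riemannRochSpace ((n : ℤ) • Finsupp.single v₀ (1 : ℤ)) := (moment φ ((l : ℕ) : K)).2
  have hpole := ord_neg_of_notMem_bad htr hVmem (hmem Q (Or.inr rfl))
  refine ⟨l, ?_⟩
  rw [ht l, if_pos hpole]
  exact ord_poolSec_eq htr hVmem hpole hD hDv hQ hmem

end Curve

end Pool

section Curve

variable {K F : Type*} [Field K] [Field F] [Algebra K F]
variable [IsAlgClosed K] [CharZero K] [Algebra.EssFiniteType K F]

/-- **L2 (pool).**  For every degree bound `b` there is a fixed finite pool `t 0, …, t q` of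
functions regular off `v₀` with a pole at `v₀` such that, for every effective divisor `D` off
`v₀` of degree `≤ b` and every place `Q ≠ v₀`, all pool sections `poolSec evalAt (t l) D` vanish
at `Q` to order `≥ D Q` and one of them to order exactly `D Q`. -/
theorem exists_pool (htr : Algebra.trdeg K F = 1) (v₀ : Place K F) (b : ℕ) :
    ∃ (q : ℕ) (t : Fin (q + 1) → F), (∀ l, t l ∈ regOff v₀) ∧ (∀ l, v₀.ord (t l) < 0) ∧
      ∀ D : Divisor K F, 0 ≤ D → D v₀ = 0 → Divisor.degree D ≤ (b : ℤ) →
        ∀ Q : Place K F, Q ≠ v₀ →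
          (∀ l, D Q ≤ Q.ord (poolSec evalAt (t l) D)) ∧
            ∃ l, Q.ord (poolSec evalAt (t l) D) = D Q := by
  have : Module.Finite K
      ↥(riemannRochSpace (((2 * gR K F + 1 : ℕ) : ℤ) • Finsupp.single v₀ (1 : ℤ))) :=
    finite_L htr _
  obtain ⟨t, h1, h2, h3⟩ := Pool.exists_pool_of_basis htr v₀ b (n := 2 * gR K F + 1) rfl
    (Module.finBasis K
      ↥(riemannRochSpace (((2 * gR K F + 1 : ℕ) : ℤ) • Finsupp.single v₀ (1 : ℤ))))
  exact ⟨_, t, h1, h2, h3⟩

end Curve

end Fermat.Agent.S17.HB.Red
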