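/-
S17, strand HB (route beta), leaf B4 (RED), L3: the colon system has a one-dimensional solution
space (helper163).

`F / K` a function field of one variable, `v₀` the base place, `D ≥ 0` an effective divisor off
`v₀` of degree `d`, `t l` (`l : Fin (q + 1)`) functions regular off `v₀` with a pole at `v₀`,
`σ l = poolSec evalAt (t l) D = ∏_P (t l - t l (P)) ^ (D P)` the pool sections: every `σ l`
vanishes on `D` and at every point `Q ≠ v₀` some `σ l` vanishes exactly to the order `D Q`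
(`hgcd`, the conclusion of the pool leaf L2).  `E ≥ 0` off `v₀` with `L(E) = K` (the reduced
divisor) and `f ≠ 0` with `ord_v f = E v - D v` off `v₀`.

`exists_sys_sol`: the solutions `(s, a) ∈ L(M₂ v₀) × L(M v₀)^q` of the colon system
`σ_(j+1) * s = σ_0 * a_j` (`j : Fin q`), written with the fixed linear maps `sysMap` and the
coefficients of the monic polynomials `poolPoly evalAt (t l) D`, are exactly the line spanned by
`u = (f σ_0, (f σ_(j+1))_j)`, and `u ≠ 0`.

The proof is valuation bookkeeping: `ColonSys.colon_line` is the statement for an abstract family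
`σ` (no pool, no polynomial), `ColonSys.sum_coeff_smul_sysMap` evaluates the system.
-/
import Mathlib
import Fermat.Agent.S24.FF.Ord
import Fermat.Agent.S17.R.LSpace
import Fermat.Agent.S17.R.Eval
import Fermat.Agent.S17.R.Gaps
import Fermat.Agent.S17.R.PoleDegree
import Fermat.Agent.S17.R.FibreSep
import Fermat.Agent.S17.R.NonSpecialStep
import Fermat.Agent.S17.H.Glob.Eval
import Fermat.Agent.S17.HB.Red.Defs

set_option autoImplicit false

namespace Fermat.Agent.S17.HB.Red

open AlgebraicCurve Polynomial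
open Fermat.Agent.S17.R Fermat.Agent.S17.H Fermat.Agent.S17.H.Glob

namespace ColonSys

open Fermat.Agent.S24.FF

variable {K F : Type*} [Field K] [Field F] [Algebra K F]

/-- `ord` of a finite product of nonzero functions. -/
theorem ord_prod (v : Place K F) {ι : Type*} (s : Finset ι) (g : ι → F)
    (hg : ∀ i ∈ s, g i ≠ 0) : v.ord (∏ i ∈ s, g i) = ∑ i ∈ s, v.ord (g i) := by
  classical
  induction s using Finset.induction_on with
  | empty => rw [Finset.prod_empty, Finset.sum_empty, Place.ord_one]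
  | insert a s ha ih =>
    rw [Finset.prod_insert ha, Finset.sum_insert ha,
      v.ord_mul (hg a (Finset.mem_insert_self a s))
        (Finset.prod_ne_zero_iff.mpr fun i hi => hg i (Finset.mem_insert_of_mem hi)),
      ih fun i hi => hg i (Finset.mem_insert_of_mem hi)]

/-- `ord` of a quotient of nonzero functions. -/
theorem ord_div (v : Place K F) {a b : F} (ha : a ≠ 0) (hb : b ≠ 0) :
    v.ord (a / b) = v.ord a - v.ord b := by
  rw [div_eq_mul_inv, v.ord_mul ha (inv_ne_zero hb), v.ord_inv]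
  ring

/-- **The colon system, abstract form.**  `σ l ≠ 0` functions such that off `v₀` every `σ l`
vanishes on `D` and some `σ l` vanishes exactly to the order `D Q`; `E ≥ 0` with `L(E) = K`,
`E v₀ = 0`; `f ≠ 0` with `ord_v f = E v - D v` off `v₀`; pole orders of `f σ_0` and `f σ_(j+1)`
at `v₀` equal to `M₂` resp. at most `M`.  Then the solutions `(s, a)` of
`σ_(j+1) * s = σ_0 * a_j` in `L(M₂ v₀) × L(M v₀)^q` form the line spanned by
`(f σ_0, (f σ_(j+1))_j) ≠ 0`. -/
theorem colon_line (v₀ : Place K F) {q : ℕ} (σ : Fin (q + 1) → F) (hσ0 : ∀ l, σ l ≠ 0)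
    {M₂ M : ℕ} (D E : Divisor K F)
    (hgcd : ∀ Q : Place K F, Q ≠ v₀ →
      (∀ l, D Q ≤ Q.ord (σ l)) ∧ ∃ l, Q.ord (σ l) = D Q)
    (hE : ∀ v, 0 ≤ E v) (hEv : E v₀ = 0)
    (hLE : ∀ g ∈ riemannRochSpace E, g ∈ Set.range (algebraMap K F))
    (f : F) (hf : f ≠ 0) (hfd : ∀ v : Place K F, v ≠ v₀ → v.ord f = E v - D v)
    (hM₂ : v₀.ord (f * σ 0) = -(M₂ : ℤ))
    (hMa : ∀ j : Fin q, -(M : ℤ) ≤ v₀.ord (f * σ j.succ)) :
    ∃ u : SysX v₀ q M₂ M, (u.1 : F) = f * σ 0 ∧ u ≠ 0 ∧
      (∀ j : Fin q, σ j.succ * (u.1 : F) - σ 0 * (u.2 j : F) = 0) ∧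
      ∀ u' : SysX v₀ q M₂ M,
        (∀ j : Fin q, σ j.succ * (u'.1 : F) - σ 0 * (u'.2 j : F) = 0) →
        ∃ μ : K, u' = μ • u := by
  classical
  have hs0 : f * σ 0 ≠ 0 := mul_ne_zero hf (hσ0 0)
  have hs_mem : f * σ 0 ∈ riemannRochSpace ((M₂ : ℤ) • Finsupp.single v₀ (1 : ℤ)) := by
    rw [Gaps.mem_Ln_iff v₀ _ hs0]
    refine ⟨by rw [hM₂], fun v hv => ?_⟩
    rw [v.ord_mul hf (hσ0 0), hfd v hv]
    have h1 := (hgcd v hv).1 0
    have h2 := hE v
    linarith
  have ha0 : ∀ j : Fin q, f * σ j.succ ≠ 0 := fun j => mul_ne_zero hf (hσ0 _)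
  have ha_mem : ∀ j : Fin q,
      f * σ j.succ ∈ riemannRochSpace ((M : ℤ) • Finsupp.single v₀ (1 : ℤ)) := by
    intro j
    rw [Gaps.mem_Ln_iff v₀ _ (ha0 j)]
    refine ⟨hMa j, fun v hv => ?_⟩
    rw [v.ord_mul hf (hσ0 _), hfd v hv]
    have h1 := (hgcd v hv).1 j.succ
    have h2 := hE v
    linarith
  refine ⟨(⟨f * σ 0, hs_mem⟩, fun j => ⟨f * σ j.succ, ha_mem j⟩), rfl, ?_, ?_, ?_⟩
  · intro h
    have h1 := congrArg (fun u : SysX v₀ q M₂ M => (u.1 : F)) h
    exact hs0 h1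
  · intro j
    show σ j.succ * (f * σ 0) - σ 0 * (f * σ j.succ) = 0
    ring
  · intro u' hu'
    have ha' : ∀ j, σ j.succ * (u'.1 : F) = σ 0 * (u'.2 j : F) := fun j =>
      sub_eq_zero.mp (hu' j)
    by_cases hs' : (u'.1 : F) = 0
    · refine ⟨0, ?_⟩
      rw [zero_smul]
      refine Prod.ext (Subtype.ext hs') (funext fun j => Subtype.ext ?_)
      have h := ha' j
      rw [hs', mul_zero] at h
      exact (mul_eq_zero.mp h.symm).resolve_left (hσ0 0)
    · have hu1 := (Gaps.mem_Ln_iff v₀ _ hs').mp u'.1.2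
      have ha'0 : ∀ j, (u'.2 j : F) ≠ 0 := by
        intro j h0
        have h := ha' j
        rw [h0, mul_zero] at h
        exact (mul_ne_zero (hσ0 _) hs') h
      have hg0 : (u'.1 : F) / (f * σ 0) ≠ 0 := div_ne_zero hs' hs0
      have hgL : (u'.1 : F) / (f * σ 0) ∈ riemannRochSpace E := by
        rw [mem_L_of_ne_zero hg0]
        intro v
        rw [ord_div v hs' hs0]
        by_cases hv : v = v₀
        · rw [hv, hM₂, hEv]
          have h1 := hu1.1
          linarith
        · rw [v.ord_mul hf (hσ0 0), hfd v hv]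
          obtain ⟨l, hl⟩ := (hgcd v hv).2
          have hs'v := hu1.2 v hv
          rcases Fin.eq_zero_or_eq_succ l with h0 | ⟨j, hj⟩
          · rw [h0] at hl
            rw [hl]
            linarith
          · rw [hj] at hl
            have h1 := congrArg v.ord (ha' j)
            rw [v.ord_mul (hσ0 _) hs', v.ord_mul (hσ0 0) (ha'0 j), hl] at h1
            have h2 := ((Gaps.mem_Ln_iff v₀ _ (ha'0 j)).mp (u'.2 j).2).2 v hv
            linarith
      obtain ⟨μ, hμ⟩ := hLE _ hgL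
      refine ⟨μ, ?_⟩
      have hs'eq : (u'.1 : F) = algebraMap K F μ * (f * σ 0) := by
        rw [hμ, div_mul_cancel₀ _ hs0]
      refine Prod.ext (Subtype.ext ?_) (funext fun j => Subtype.ext ?_)
      · show (u'.1 : F) = μ • (f * σ 0)
        rw [Algebra.smul_def]
        exact hs'eq
      · show (u'.2 j : F) = μ • (f * σ j.succ)
        rw [Algebra.smul_def]
        have h := ha' j
        rw [hs'eq] at h
        have h2 : σ 0 * (u'.2 j : F) = σ 0 * (algebraMap K F μ * (f * σ j.succ)) := by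
          rw [← h]
          ring
        exact mul_left_cancel₀ (hσ0 0) h2

/-- The colon system evaluated at the coefficients of the pool polynomials. -/
theorem sum_coeff_smul_sysMap (v₀ : Place K F) {q : ℕ} (t : Fin (q + 1) → F) {d : ℕ}
    (M₂ M : ℕ) (ev : Place K F → F → K) (D : Divisor K F)
    (hd : ∀ l, (poolPoly ev (t l) D).natDegree ≤ d) (u : SysX v₀ q M₂ M) (j : Fin q) :
    (∑ k : Fin (q + 1) × Fin (d + 1),
        (poolPoly ev (t k.1) D).coeff (k.2 : ℕ) • sysMap v₀ t d M₂ M k u) j =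
      poolSec ev (t j.succ) D * (u.1 : F) - poolSec ev (t 0) D * (u.2 j : F) := by
  have h := sum_smul_sysMap v₀ t d M₂ M
    (fun k : Fin (q + 1) × Fin (d + 1) => (poolPoly ev (t k.1) D).coeff (k.2 : ℕ)) u j
  rw [poolSec_eq_sum ev (t j.succ) D (hd j.succ), poolSec_eq_sum ev (t 0) D (hd 0)]
  exact h

/-- A factor of a pool section is nonzero: `t` has a pole at `v₀`, a constant does not. -/
theorem sub_ne_zero_of_ord_neg [IsAlgClosed K] [CharZero K] [Algebra.EssFiniteType K F]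
    {v₀ : Place K F} {t : F} (ht0 : v₀.ord t < 0) (c : K) : t - algebraMap K F c ≠ 0 := by
  intro h
  have h1 := PoleDegree.ord_sub_algebraMap ht0 c
  rw [h, Place.ord_zero] at h1
  omega

/-- The pool section of a function with a pole at `v₀` is nonzero. -/
theorem poolSec_ne_zero [IsAlgClosed K] [CharZero K] [Algebra.EssFiniteType K F]
    {v₀ : Place K F} (ev : Place K F → F → K) {t : F} (ht0 : v₀.ord t < 0)
    (D : Divisor K F) : poolSec ev t D ≠ 0 := by
  unfold poolSec Finsupp.prod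
  exact Finset.prod_ne_zero_iff.mpr fun P _ => pow_ne_zero _ (sub_ne_zero_of_ord_neg ht0 _)

/-- The sum of the multiplicities of an effective divisor is its degree. -/
theorem sum_toNat_eq [IsAlgClosed K] [CharZero K] [Algebra.EssFiniteType K F]
    (htr : Algebra.trdeg K F = 1) {D : Divisor K F} (hD : 0 ≤ D) {d : ℕ}
    (hdeg : Divisor.degree D = d) : ∑ P ∈ D.support, (D P).toNat = d := by
  have h1 := NonSpecialStep.degree_eq_sum_support htr D
  rw [hdeg] at h1
  have h2 : ((∑ P ∈ D.support, (D P).toNat : ℕ) : ℤ) = ∑ P ∈ D.support, D P := by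
    rw [Nat.cast_sum]
    refine Finset.sum_congr rfl fun P _ => ?_
    have h0 := Finsupp.le_def.mp hD P
    rw [Finsupp.zero_apply] at h0
    exact Int.toNat_of_nonneg h0
  exact_mod_cast h2.trans h1.symm

/-- The pole order at `v₀` of a pool section: `ord_v₀ σ = d * ord_v₀ t`. -/
theorem ord_poolSec [IsAlgClosed K] [CharZero K] [Algebra.EssFiniteType K F]
    (htr : Algebra.trdeg K F = 1) {v₀ : Place K F} (ev : Place K F → F → K) {t : F}
    (ht0 : v₀.ord t < 0) {D : Divisor K F} (hD : 0 ≤ D) {d : ℕ}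
    (hdeg : Divisor.degree D = d) : v₀.ord (poolSec ev t D) = (d : ℤ) * v₀.ord t := by
  have hsum := sum_toNat_eq htr hD hdeg
  unfold poolSec Finsupp.prod
  rw [ord_prod v₀ _ _ fun P _ => pow_ne_zero _ (sub_ne_zero_of_ord_neg ht0 _)]
  have h1 : ∀ P ∈ D.support, v₀.ord ((t - algebraMap K F (ev P t)) ^ (D P).toNat) =
      ((D P).toNat : ℤ) * v₀.ord t := by
    intro P _
    rw [FibreSep.ord_pow' v₀ (sub_ne_zero_of_ord_neg ht0 _),
      PoleDegree.ord_sub_algebraMap ht0]
  rw [Finset.sum_congr rfl h1, ← Finset.sum_mul, ← hsum, Nat.cast_sum]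

end ColonSys

section Curve

variable {K F : Type*} [Field K] [Field F] [Algebra K F]
variable [IsAlgClosed K] [CharZero K] [Algebra.EssFiniteType K F]

/-- **L3 of B4 (RED): the colon system.**  Its solution space is the line spanned by
`u = (f σ_0, (f σ_(j+1))_j)`, `σ_l = poolSec evalAt (t l) D`. -/
theorem exists_sys_sol (htr : Algebra.trdeg K F = 1) (v₀ : Place K F) {q : ℕ}
    (t : Fin (q + 1) → F) (ht : ∀ l, t l ∈ regOff v₀) (ht0 : ∀ l, v₀.ord (t l) < 0)
    {d M₂ M : ℕ} (hM : ∀ l, (M₂ : ℤ) + d * (-(v₀.ord (t l))) ≤ M)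
    (D E : Divisor K F) (hD : 0 ≤ D) (hDv : D v₀ = 0) (hdeg : Divisor.degree D = d)
    (hgcd : ∀ Q : Place K F, Q ≠ v₀ →
      (∀ l, D Q ≤ Q.ord (poolSec evalAt (t l) D)) ∧ ∃ l, Q.ord (poolSec evalAt (t l) D) = D Q)
    (hE : 0 ≤ E) (hEv : E v₀ = 0)
    (hLE : ∀ g ∈ riemannRochSpace E, g ∈ Set.range (algebraMap K F))
    (f : F) (hf : f ≠ 0) (hfd : ∀ v : Place K F, v ≠ v₀ → v.ord f = E v - D v)
    (hM₂ : v₀.ord (f * poolSec evalAt (t 0) D) = -(M₂ : ℤ)) :
    ∃ u : SysX v₀ q M₂ M, (u.1 : F) = f * poolSec evalAt (t 0) D ∧ u ≠ 0 ∧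
      (∑ k : Fin (q + 1) × Fin (d + 1),
        (poolPoly evalAt (t k.1) D).coeff (k.2 : ℕ) • sysMap v₀ t d M₂ M k u = 0) ∧
      ∀ u' : SysX v₀ q M₂ M, (∑ k : Fin (q + 1) × Fin (d + 1),
        (poolPoly evalAt (t k.1) D).coeff (k.2 : ℕ) • sysMap v₀ t d M₂ M k u' = 0) →
        ∃ μ : K, u' = μ • u := by
  have hσ0 : ∀ l, poolSec (Glob.evalAt (K := K) (F := F)) (t l) D ≠ 0 := fun l =>
    ColonSys.poolSec_ne_zero _ (ht0 l) D
  have hσord : ∀ l, v₀.ord (poolSec (Glob.evalAt (K := K) (F := F)) (t l) D) =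
      (d : ℤ) * v₀.ord (t l) := fun l => ColonSys.ord_poolSec htr _ (ht0 l) hD hdeg
  have hnat : ∀ l, (poolPoly (Glob.evalAt (K := K) (F := F)) (t l) D).natDegree ≤ d :=
    fun l => by rw [natDegree_poolPoly, ColonSys.sum_toNat_eq htr hD hdeg]
  have hE0 : ∀ v, 0 ≤ E v := by
    intro v
    have h0 := Finsupp.le_def.mp hE v
    rwa [Finsupp.zero_apply] at h0
  have hMa : ∀ j : Fin q, -(M : ℤ) ≤
      v₀.ord (f * poolSec (Glob.evalAt (K := K) (F := F)) (t j.succ) D) := by
    intro j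
    have h1 := hM₂
    rw [v₀.ord_mul hf (hσ0 0), hσord 0] at h1
    rw [v₀.ord_mul hf (hσ0 _), hσord j.succ]
    have h2 := hM j.succ
    have h3 : (0 : ℤ) ≤ (d : ℤ) * (-(v₀.ord (t 0))) :=
      mul_nonneg (Int.natCast_nonneg d) (by have := ht0 0; omega)
    linarith
  obtain ⟨u, hu1, hu0, husys, huniq⟩ := ColonSys.colon_line v₀
    (fun l => poolSec (Glob.evalAt (K := K) (F := F)) (t l) D) hσ0 D E hgcd hE0 hEv hLE f hf hfd
    hM₂ hMa
  refine ⟨u, hu1, hu0, ?_, fun u' hu' => huniq u' fun j => ?_⟩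
  · funext j
    rw [ColonSys.sum_coeff_smul_sysMap v₀ t M₂ M _ D hnat u j]
    exact husys j
  · have h := congrFun hu' j
    rw [ColonSys.sum_coeff_smul_sysMap v₀ t M₂ M _ D hnat u' j] at h
    exact h

end Curve

end Fermat.Agent.S17.HB.Red
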