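import Mathlib
import Fermat.Agent.S17.R.Riemann
import Fermat.Agent.S17.R.PoleDegree
import Fermat.Agent.S17.R.PoleOrder
import Fermat.Agent.S17.R.FibreSep
import Fermat.Agent.S17.R.NonSpecialStep
import Fermat.Agent.S17.H.Glob.ChowCore
import Fermat.Agent.S17.H.AbsHeight.Tuple
import Fermat.Agent.S17.HB.Red.Defs
import Fermat.Agent.S17.HB.Red.KerHeight
import Fermat.Agent.S17.HB.Red.Pool
import Fermat.Agent.S17.HB.Red.System
import Fermat.Agent.S17.HB.Red.PoolHeight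

/-!
# S17, strand HB (route beta), leaf B4 (RED): the core

`red_core`: let `D` be an effective divisor off `v₀` of degree `≤ b` and `E` the reduced divisor
of its class (`E ≥ 0` off `v₀`, `L(E) = Qb`, `E - D + (deg D - deg E) v₀` principal).  Then

  `divH y E ≤ A * divH y D + C`

with `A`, `C` depending only on the curve, `v₀`, `y` and `b`.

Proof: the pool `t` of `Pool.lean` (every `D` is the greatest common divisor of the zero divisors
of the `σ_l = poolSec (t l) D`), the colon system of `System.lean` (its solution space is the line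
spanned by `(f σ_0, f σ_1, …)`), the height of the kernel vector of a linear system that depends
linearly on the parameters (`KerHeight.lean`), the height of the parameters (`PoolHeight.lean`),
and CHOW (`Glob.ChowCore.chow_finset`) for `s = f σ_0`, whose zeros off `v₀` contain `E`.
-/

set_option autoImplicit false

namespace Fermat.Agent.S17.HB.Red

open AlgebraicCurve Polynomial Module
open Fermat.Agent.S17.R Fermat.Agent.S17.H Fermat.Agent.S17.H.Glob

local notation "Qb" => AlgebraicClosure ℚ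

namespace Core

section General

variable {K F : Type*} [Field K] [Field F] [Algebra K F]

/-- The order of a finite product of non-zero functions. -/
theorem ord_prod (v : Place K F) {α : Type*} (s : Finset α) (g : α → F)
    (hg : ∀ i ∈ s, g i ≠ 0) : v.ord (∏ i ∈ s, g i) = ∑ i ∈ s, v.ord (g i) := by
  classical
  induction s using Finset.induction_on with
  | empty => simp [Place.ord_one]
  | insert a s ha ih =>
    have h1 : g a ≠ 0 := hg a (Finset.mem_insert_self _ _)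
    have h2 : ∀ i ∈ s, g i ≠ 0 := fun i hi => hg i (Finset.mem_insert_of_mem hi)
    rw [Finset.prod_insert ha, Finset.sum_insert ha,
      v.ord_mul h1 (Finset.prod_ne_zero_iff.mpr h2), ih h2]

end General

section Curve

variable {K F : Type*} [Field K] [Field F] [Algebra K F]
variable [IsAlgClosed K] [CharZero K] [Algebra.EssFiniteType K F]

/-- `t - c ≠ 0` for a function `t` with a pole. -/
theorem sub_ne_zero_of_pole {v₀ : Place K F} {t : F} (ht0 : v₀.ord t < 0) (c : K) :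
    t - algebraMap K F c ≠ 0 := by
  intro h
  have h1 := PoleDegree.ord_sub_algebraMap ht0 c
  rw [h, Place.ord_zero] at h1
  omega

/-- `poolSec` of a function with a pole is non-zero. -/
theorem poolSec_ne_zero {v₀ : Place K F} {t : F} (ht0 : v₀.ord t < 0)
    (ev : Place K F → F → K) (D : Divisor K F) : poolSec ev t D ≠ 0 := by
  unfold poolSec Finsupp.prod
  exact Finset.prod_ne_zero_iff.mpr fun P _ => pow_ne_zero _ (sub_ne_zero_of_pole ht0 _)

/-- The order of `poolSec` at the base place. -/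
theorem ord_poolSec_base (htr : Algebra.trdeg K F = 1) {v₀ : Place K F} {t : F}
    (ht0 : v₀.ord t < 0) (ev : Place K F → F → K) {D : Divisor K F} (hD : 0 ≤ D) :
    v₀.ord (poolSec ev t D) = Divisor.degree D * v₀.ord t := by
  unfold poolSec Finsupp.prod
  rw [ord_prod v₀ _ _ fun P _ => pow_ne_zero _ (sub_ne_zero_of_pole ht0 _),
    NonSpecialStep.degree_eq_sum_support htr D, Finset.sum_mul]
  refine Finset.sum_congr rfl fun P _ => ?_
  rw [FibreSep.ord_pow' v₀ (sub_ne_zero_of_pole ht0 _), PoleDegree.ord_sub_algebraMap ht0,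
    Int.toNat_of_nonneg (hD P)]

/-- The order at the base place of a function whose divisor off `v₀` is `E - D`. -/
theorem ord_base_eq (htr : Algebra.trdeg K F = 1) {v₀ : Place K F} {D E : Divisor K F}
    (hDv : D v₀ = 0) (hEv : E v₀ = 0) {f : F} (hf : f ≠ 0)
    (hfd : ∀ v : Place K F, v ≠ v₀ → v.ord f = E v - D v) :
    v₀.ord f = Divisor.degree D - Divisor.degree E := by
  classical
  have h := Fermat.Agent.S24.FF.degree_eq_zero_of_ord htr hf
    (E - D + (v₀.ord f) • Finsupp.single v₀ (1 : ℤ)) (fun v => by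
      rw [Finsupp.add_apply, Finsupp.sub_apply, Finsupp.smul_apply, Finsupp.single_apply]
      by_cases hv : v = v₀
      · subst hv
        rw [if_pos rfl, hDv, hEv]
        simp
      · rw [if_neg (fun h => hv h.symm), hfd v hv]
        simp)
  rw [map_add, map_sub, PoleOrder.degree_zsmul_single htr] at h
  omega

/-- The reduced divisor has degree at most the genus. -/
theorem degree_le_gR (htr : Algebra.trdeg K F = 1) {E : Divisor K F}
    (hLE : ∀ g ∈ riemannRochSpace E, g ∈ Set.range (algebraMap K F)) :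
    Divisor.degree E ≤ (gR K F : ℤ) := by
  have h1 := riemann_inequality htr E
  have hle : riemannRochSpace E ≤ Submodule.span K {(1 : F)} := by
    intro g hg
    obtain ⟨c, rfl⟩ := hLE g hg
    rw [Algebra.algebraMap_eq_smul_one]
    exact Submodule.smul_mem _ _ (Submodule.subset_span rfl)
  have h2 : Module.finrank K ↥(riemannRochSpace E) ≤ 1 := by
    have h3 := LinearMap.finrank_le_finrank_of_injective (Submodule.inclusion_injective hle)
    exact h3.trans (finrank_span_le_card ({(1 : F)} : Set F) |>.trans (by simp))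
  have h4 : (Module.finrank K ↥(riemannRochSpace E) : ℤ) ≤ 1 := by exact_mod_cast h2
  omega

end Curve

end Core

section Heights

variable {F : Type*} [Field F] [Algebra Qb F] [Algebra.EssFiniteType Qb F]

/-- **(RED), one shape of the colon system**: the statement of `red_core` for divisors `D` of
degree `d` and exact pole order `M₂` of `f σ_0` at the base place. -/
theorem red_core_aux (htr : Algebra.trdeg Qb F = 1) (v₀ : Place Qb F) {y : F}
    (hy : RegOff v₀ y) (hy0 : v₀.ord y < 0) {q : ℕ} (t : Fin (q + 1) → F)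
    (ht : ∀ l, t l ∈ regOff v₀) (ht0 : ∀ l, v₀.ord (t l) < 0) (d M₂ M : ℕ)
    (hM : ∀ l, (M₂ : ℤ) + d * (-(v₀.ord (t l))) ≤ M) :
    ∃ A C : ℝ, 0 ≤ A ∧ ∀ D E : Divisor Qb F, 0 ≤ D → D v₀ = 0 → Divisor.degree D = d →
      (∀ Q : Place Qb F, Q ≠ v₀ → (∀ l, D Q ≤ Q.ord (poolSec evalAt (t l) D)) ∧
        ∃ l, Q.ord (poolSec evalAt (t l) D) = D Q) →
      0 ≤ E → E v₀ = 0 → (∀ g ∈ riemannRochSpace E, g ∈ Set.range (algebraMap Qb F)) →
      ∀ f : F, f ≠ 0 → (∀ v : Place Qb F, v ≠ v₀ → v.ord f = E v - D v) →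
      v₀.ord (f * poolSec evalAt (t 0) D) = -(M₂ : ℤ) →
      divH evalAt y E ≤ A * divH evalAt y D + C := by
  classical
  have h1fin := finite_L htr ((M₂ : ℤ) • Finsupp.single v₀ (1 : ℤ))
  have h2fin := finite_L htr ((M : ℤ) • Finsupp.single v₀ (1 : ℤ))
  let b₁ := Module.finBasis Qb ↥(riemannRochSpace ((M₂ : ℤ) • Finsupp.single v₀ (1 : ℤ)))
  let b₂ := Module.finBasis Qb ↥(riemannRochSpace ((M : ℤ) • Finsupp.single v₀ (1 : ℤ)))
  let bX : Module.Basis _ Qb (SysX v₀ q M₂ M) := b₁.prod (Pi.basis fun _ : Fin q => b₂)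
  obtain ⟨cd, hcd0, C₁, hC₁⟩ : ∃ cd : ℝ, 0 ≤ cd ∧ ∃ C₁ : ℝ,
      ∀ (θ : Fin (q + 1) × Fin (d + 1) → Qb) (u : SysX v₀ q M₂ M), u ≠ 0 →
        (∑ k, θ k • sysMap v₀ t d M₂ M k u = 0) →
        (∀ u' : SysX v₀ q M₂ M, (∑ k, θ k • sysMap v₀ t d M₂ M k u' = 0) →
          ∃ μ : Qb, u' = μ • u) →
        hT (fun i => bX.repr u i) ≤ C₁ + cd * hT θ := by
    obtain ⟨C₁, hC₁⟩ := exists_hT_ker_le bX (sysMap v₀ t d M₂ M)
    exact ⟨_, Nat.cast_nonneg _, C₁, hC₁⟩
  obtain ⟨A₄, C₄, hA₄, h₄⟩ := exists_hT_poolCoeff_le htr v₀ hy hy0 t ht ht0 d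
  set ψ : Fin (Module.finrank Qb ↥(riemannRochSpace ((M₂ : ℤ) • Finsupp.single v₀ (1 : ℤ)))) → F :=
    fun i => (b₁ i : F) with hψdef
  have hψ : LinearIndependent Qb ψ :=
    b₁.linearIndependent.map' (Submodule.subtype _) (Submodule.ker_subtype _)
  have hψreg : ∀ i, RegOff v₀ (ψ i) := fun i => ChowCore.regOff_of_mem_L (b₁ i).2
  have hψM : ∀ i, -(M₂ : ℤ) ≤ v₀.ord (ψ i) := fun i => ChowCore.neg_le_ord_of_mem_L (b₁ i).2
  obtain ⟨C₃, hC₃⟩ := ChowCore.chow_finset htr v₀ (isEval_evalAt htr) hy hy0 ψ hψ hψreg hψM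
  obtain ⟨ny, hny0, hny⟩ : ∃ ny : ℝ, 0 ≤ ny ∧ ny = (((-(v₀.ord y)).toNat : ℕ) : ℝ) :=
    ⟨_, Nat.cast_nonneg _, rfl⟩
  rw [← hny] at hC₃
  refine ⟨ny * (cd * A₄), ny * (C₁ + cd * C₄) + C₃, by positivity, ?_⟩
  intro D E hD hDv hdeg hgcd hE hEv hLE f hf hfd hM₂
  obtain ⟨u, hu1, hu0, hker, huniq⟩ :=
    exists_sys_sol htr v₀ t ht ht0 hM D E hD hDv hdeg hgcd hE hEv hLE f hf hfd hM₂
  have hσ0 : poolSec evalAt (t 0) D ≠ 0 := Core.poolSec_ne_zero (ht0 0) evalAt D
  have hs0 : (u.1 : F) ≠ 0 := by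
    rw [hu1]
    exact mul_ne_zero hf hσ0
  have h1 := hC₁ (fun k => (poolPoly evalAt (t k.1) D).coeff (k.2 : ℕ)) u hu0 hker huniq
  have h4 := h₄ D hD hDv hdeg
  -- the coefficient vector of `s = u.1`
  set c : Fin (Module.finrank Qb ↥(riemannRochSpace ((M₂ : ℤ) • Finsupp.single v₀ (1 : ℤ)))) → Qb :=
    fun i => b₁.repr u.1 i with hcdef
  have hcle : hT c ≤ hT (fun i => bX.repr u i) := by
    have h := Tuple.hT_comp_le (Sum.inl : Fin (Module.finrank Qb
      ↥(riemannRochSpace ((M₂ : ℤ) • Finsupp.single v₀ (1 : ℤ)))) → _) (fun i => bX.repr u i)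
    have e : (fun i => bX.repr u i) ∘ Sum.inl = c := by
      funext i
      exact Module.Basis.prod_repr_inl b₁ _ u i
    rwa [e] at h
  have hsum : ∑ i, c i • ψ i = (u.1 : F) := by
    have h := congrArg (Submodule.subtype _) (b₁.sum_repr u.1)
    rw [map_sum] at h
    simpa using h
  have hc0 : c ≠ 0 := by
    intro h
    apply hs0
    rw [← hsum, h]
    simp
  obtain ⟨S, hS1, hS2, hS3, hS4, hS5⟩ := hC₃ c hc0
  rw [hsum] at hS5
  simp only [hsum] at hS2 hS3
  have hordE : ∀ v : Place Qb F, v ≠ v₀ → E v ≤ v.ord (u.1 : F) := by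
    intro v hv
    rw [hu1, v.ord_mul hf hσ0, hfd v hv]
    have := (hgcd v hv).1 0
    omega
  have hne : ∀ v ∈ E.support, v ≠ v₀ := by
    intro v hv h
    rw [h] at hv
    exact (Finsupp.mem_support_iff.mp hv) hEv
  have hsub : E.support ⊆ S := by
    intro v hv
    by_contra hvS
    have h0 := hS2 v (hne v hv) hvS
    have hE1 := hordE v (hne v hv)
    have hEpos : 0 < E v := lt_of_le_of_ne (hE v) (Ne.symm (Finsupp.mem_support_iff.mp hv))
    omega
  have hdiv : divH evalAt y E ≤ ∑ v ∈ S, ((v.ord (u.1 : F) : ℤ) : ℝ) * hQ (evalAt v y) := by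
    unfold divH Finsupp.sum
    refine (Finset.sum_le_sum fun v hv => mul_le_mul_of_nonneg_right ?_ (hQ_nonneg _)).trans
      (Finset.sum_le_sum_of_subset_of_nonneg hsub fun v hv _ =>
        mul_nonneg ?_ (hQ_nonneg _))
    · exact_mod_cast hordE v (hne v hv)
    · exact_mod_cast hS3 v hv
  have h5 := (abs_le.mp hS5).2
  have hD0 := divH_nonneg evalAt y hD
  have hθ0 : hT (fun k : Fin (q + 1) × Fin (d + 1) =>
      (poolPoly evalAt (t k.1) D).coeff (k.2 : ℕ)) ≤ A₄ * divH evalAt y D + C₄ := h4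
  have hc1 : hT c ≤ C₁ + cd * (A₄ * divH evalAt y D + C₄) :=
    hcle.trans (h1.trans (by
      have := mul_le_mul_of_nonneg_left hθ0 hcd0
      linarith))
  have hfin : ny * hT c ≤ ny * (C₁ + cd * (A₄ * divH evalAt y D + C₄)) :=
    mul_le_mul_of_nonneg_left hc1 hny0
  calc divH evalAt y E ≤ ny * hT c + C₃ := by linarith
    _ ≤ ny * (C₁ + cd * (A₄ * divH evalAt y D + C₄)) + C₃ := by linarith
    _ = ny * (cd * A₄) * divH evalAt y D + (ny * (C₁ + cd * C₄) + C₃) := by ring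

/-- **(RED), core**: the reduced divisor `E` (`L(E) = Qb`) of the class of an effective divisor
`D` off `v₀` of degree `≤ b` has `y`-height `≤ A * (y-height of D) + C`. -/
theorem red_core (htr : Algebra.trdeg Qb F = 1) (v₀ : Place Qb F) {y : F} (hy : RegOff v₀ y)
    (hy0 : v₀.ord y < 0) (b : ℕ) :
    ∃ A C : ℝ, 0 ≤ A ∧ ∀ D E : Divisor Qb F, 0 ≤ D → D v₀ = 0 → Divisor.degree D ≤ (b : ℤ) →
      0 ≤ E → E v₀ = 0 → (∀ g ∈ riemannRochSpace E, g ∈ Set.range (algebraMap Qb F)) →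
      (∃ f : F, f ≠ 0 ∧ ∀ v : Place Qb F, v ≠ v₀ → v.ord f = E v - D v) →
      divH evalAt y E ≤ A * divH evalAt y D + C := by
  classical
  obtain ⟨q, t, ht, ht0, hpool⟩ := exists_pool htr v₀ b
  obtain ⟨n0, hn0⟩ : ∃ n0 : ℕ, (n0 : ℤ) = -(v₀.ord (t 0)) :=
    ⟨(-(v₀.ord (t 0))).toNat, Int.toNat_of_nonneg (by have := ht0 0; omega)⟩
  obtain ⟨nl, hnl⟩ : ∃ nl : Fin (q + 1) → ℕ, ∀ l, (nl l : ℤ) = -(v₀.ord (t l)) :=
    ⟨fun l => (-(v₀.ord (t l))).toNat, fun l => Int.toNat_of_nonneg (by have := ht0 l; omega)⟩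
  obtain ⟨N0, hN0⟩ : ∃ N0 : ℕ, ∀ l, nl l ≤ N0 :=
    ⟨∑ l, nl l, fun l => Finset.single_le_sum (fun _ _ => Nat.zero_le _) (Finset.mem_univ l)⟩
  obtain ⟨B2, hB2⟩ : ∃ B2 : ℕ, B2 = gR Qb F + b * n0 := ⟨_, rfl⟩
  obtain ⟨M, hMdef⟩ : ∃ M : ℕ, M = B2 + b * N0 := ⟨_, rfl⟩
  have haux : ∀ p : Fin (b + 1) × Fin (B2 + 1), ∃ A C : ℝ, 0 ≤ A ∧
      ∀ D E : Divisor Qb F, 0 ≤ D → D v₀ = 0 → Divisor.degree D = ((p.1 : ℕ) : ℤ) →
      (∀ Q : Place Qb F, Q ≠ v₀ → (∀ l, D Q ≤ Q.ord (poolSec evalAt (t l) D)) ∧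
        ∃ l, Q.ord (poolSec evalAt (t l) D) = D Q) →
      0 ≤ E → E v₀ = 0 → (∀ g ∈ riemannRochSpace E, g ∈ Set.range (algebraMap Qb F)) →
      ∀ f : F, f ≠ 0 → (∀ v : Place Qb F, v ≠ v₀ → v.ord f = E v - D v) →
      v₀.ord (f * poolSec evalAt (t 0) D) = -(((p.2 : ℕ) : ℕ) : ℤ) →
      divH evalAt y E ≤ A * divH evalAt y D + C := by
    intro p
    refine red_core_aux htr v₀ hy hy0 t ht ht0 (p.1 : ℕ) (p.2 : ℕ) M (fun l => ?_)
    rw [← hnl l, hMdef]
    have h1 : ((p.1 : ℕ) : ℤ) * (nl l : ℤ) ≤ (b : ℤ) * (N0 : ℤ) := by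
      have ha : (p.1 : ℕ) ≤ b := Nat.lt_succ_iff.mp p.1.2
      have hb := hN0 l
      exact_mod_cast Nat.mul_le_mul ha hb
    have h2 : (p.2 : ℕ) ≤ B2 := Nat.lt_succ_iff.mp p.2.2
    push_cast
    omega
  choose A C hA hAC using haux
  refine ⟨∑ p, A p, ∑ p, |C p|, Finset.sum_nonneg fun p _ => hA p, ?_⟩
  intro D E hD hDv hdegb hE hEv hLE ⟨f, hf, hfd⟩
  have hdeg0 : 0 ≤ Divisor.degree D := R.degree_nonneg htr hD
  have hdegE0 : 0 ≤ Divisor.degree E := R.degree_nonneg htr hE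
  have hdegEg := Core.degree_le_gR htr hLE
  obtain ⟨d, hd⟩ := Int.eq_ofNat_of_zero_le hdeg0
  have hdb : d ≤ b := by
    rw [hd] at hdegb
    exact_mod_cast hdegb
  have hσ0 : poolSec evalAt (t 0) D ≠ 0 := Core.poolSec_ne_zero (ht0 0) evalAt D
  have hord : v₀.ord (f * poolSec evalAt (t 0) D) =
      Divisor.degree D - Divisor.degree E + Divisor.degree D * v₀.ord (t 0) := by
    rw [v₀.ord_mul hf hσ0, Core.ord_base_eq htr hDv hEv hf hfd,
      Core.ord_poolSec_base htr (ht0 0) evalAt hD]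
  have hn0pos : (1 : ℤ) ≤ (n0 : ℤ) := by
    have := ht0 0
    omega
  have hprod1 : (0 : ℤ) ≤ (d : ℤ) * ((n0 : ℤ) - 1) := mul_nonneg (by positivity) (by omega)
  have hprod2 : (d : ℤ) * (n0 : ℤ) ≤ (b : ℤ) * (n0 : ℤ) :=
    mul_le_mul_of_nonneg_right (by exact_mod_cast hdb) (by positivity)
  have hord0 : v₀.ord (t 0) = -(n0 : ℤ) := by omega
  have hM2nn : 0 ≤ -(v₀.ord (f * poolSec evalAt (t 0) D)) := by
    rw [hord, hd, hord0]
    nlinarith
  obtain ⟨M₂, hM₂⟩ := Int.eq_ofNat_of_zero_le hM2nn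
  have hM2le : M₂ ≤ B2 := by
    have h1 : (M₂ : ℤ) ≤ (gR Qb F : ℤ) + (b : ℤ) * (n0 : ℤ) := by
      rw [← hM₂, hord, hd, hord0]
      nlinarith
    rw [hB2]
    exact_mod_cast h1
  have key := hAC (⟨d, Nat.lt_succ_of_le hdb⟩, ⟨M₂, Nat.lt_succ_of_le hM2le⟩) D E hD hDv hd
    (fun Q hQ => hpool D hD hDv hdegb Q hQ) hE hEv hLE f hf hfd (by
      show v₀.ord (f * poolSec evalAt (t 0) D) = -((M₂ : ℕ) : ℤ)
      omega)
  have hD0 := divH_nonneg evalAt y hD
  have hA1 : A (⟨d, Nat.lt_succ_of_le hdb⟩, ⟨M₂, Nat.lt_succ_of_le hM2le⟩) ≤ ∑ p, A p :=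
    Finset.single_le_sum (fun p _ => hA p) (Finset.mem_univ _)
  have hC1 : C (⟨d, Nat.lt_succ_of_le hdb⟩, ⟨M₂, Nat.lt_succ_of_le hM2le⟩) ≤ ∑ p, |C p| :=
    (le_abs_self _).trans
      (Finset.single_le_sum (f := fun p => |C p|) (fun p _ => abs_nonneg _) (Finset.mem_univ _))
  have hA2 := mul_le_mul_of_nonneg_right hA1 hD0
  linarith

end Heights

end Fermat.Agent.S17.HB.Red
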