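import Mathlib
import Fermat.Agent.S17.R.Reduced
import Fermat.Agent.S17.HB.Red.Core

/-!
# S17, strand HB (route beta), leaf B4 (RED): the exits

`H x := divH evalAt y (redDiv v₀ x)` is the height of the reduced divisor of a class of degree
zero (`y` regular off the base place `v₀`, with a pole at `v₀`).

* `red_of_isEffRep` : for every effective presentation `x = [D - d v₀]`, `d ≤ b`, `D` off `v₀`:
  `H x ≤ A * divH evalAt y D + C`;
* `red_add`         : **B4 (RED)**, `H (x + x') ≤ A * (H x + H x') + C`.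

The constants depend only on the curve, `v₀`, `y` (and `b`).
-/

set_option autoImplicit false

namespace Fermat.Agent.S17.HB.Red

open AlgebraicCurve
open Fermat.Agent.S17.R Fermat.Agent.S17.H Fermat.Agent.S17.H.Glob

local notation "Qb" => AlgebraicClosure ℚ

section Heights

variable {F : Type*} [Field F] [Algebra Qb F] [Algebra.EssFiniteType Qb F]

/-- **(RED) for effective representatives**: the height of the reduced divisor of a class is
bounded by the height of any effective presentation of bounded degree off the base place. -/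
theorem red_of_isEffRep (htr : Algebra.trdeg Qb F = 1) (v₀ : Place Qb F) {y : F}
    (hy : RegOff v₀ y) (hy0 : v₀.ord y < 0) (b : ℕ) :
    ∃ A C : ℝ, 0 ≤ A ∧ ∀ (x : Pic0 Qb F) (d : ℕ) (D : Divisor Qb F), d ≤ b →
      IsEffRep v₀ x d D → D v₀ = 0 →
      divH evalAt y (redDiv v₀ x) ≤ A * divH evalAt y D + C := by
  classical
  obtain ⟨A, C, hA, h⟩ := red_core htr v₀ hy hy0 b
  refine ⟨A, C, hA, fun x d D hdb hrep hDv => ?_⟩
  have hE := isEffRep_redDiv htr v₀ x
  obtain ⟨hD0, hDz, hDmk⟩ := hrep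
  obtain ⟨hE0, hEz, hEmk⟩ := hE
  have hmm := hDmk.trans hEmk.symm
  rw [ReducedCore.mk_eq_mk_iff] at hmm
  obtain ⟨f, hf0, hf⟩ := hmm
  have hdeg : Divisor.degree D = d := ReducedCore.degree_eq_of_mem_degZero htr hDz
  refine h D (redDiv v₀ x) hD0 hDv (by rw [hdeg]; exact_mod_cast hdb) hE0
    (redDiv_apply_self htr v₀ x) (fun g hg => (mem_L_redDiv_iff htr v₀ x).mp hg)
    ⟨f, hf0, fun v hv => ?_⟩
  have h1 := hf v
  rw [Finsupp.sub_apply, Finsupp.sub_apply, Finsupp.smul_apply, Finsupp.smul_apply,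
    Finsupp.single_apply, if_neg (fun h => hv h.symm)] at h1
  simp only [smul_zero, sub_zero] at h1
  exact h1.symm

/-- **B4 (RED)**: the height of the reduced divisor is quasi-subadditive on classes, with
constants depending only on the curve, the base place and `y`. -/
theorem red_add (htr : Algebra.trdeg Qb F = 1) (v₀ : Place Qb F) {y : F} (hy : RegOff v₀ y)
    (hy0 : v₀.ord y < 0) :
    ∃ A C : ℝ, 0 ≤ A ∧ ∀ x x' : Pic0 Qb F,
      divH evalAt y (redDiv v₀ (x + x')) ≤
        A * (divH evalAt y (redDiv v₀ x) + divH evalAt y (redDiv v₀ x')) + C := by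
  classical
  obtain ⟨A, C, hA, h⟩ := red_of_isEffRep htr v₀ hy hy0 (2 * gR Qb F)
  refine ⟨A, C, hA, fun x x' => ?_⟩
  obtain ⟨h0, hz, hmk⟩ := isEffRep_redDiv htr v₀ x
  obtain ⟨h0', hz', hmk'⟩ := isEffRep_redDiv htr v₀ x'
  have hd : redDeg v₀ x + redDeg v₀ x' ≤ 2 * gR Qb F := by
    have h1 := redDeg_le_gR htr v₀ x
    have h2 := redDeg_le_gR htr v₀ x'
    omega
  have heq : redDiv v₀ x + redDiv v₀ x' -
      ((redDeg v₀ x + redDeg v₀ x' : ℕ) : ℤ) • Finsupp.single v₀ (1 : ℤ) =
      (redDiv v₀ x - (redDeg v₀ x : ℤ) • Finsupp.single v₀ (1 : ℤ)) +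
        (redDiv v₀ x' - (redDeg v₀ x' : ℤ) • Finsupp.single v₀ (1 : ℤ)) := by
    push_cast
    rw [add_smul]
    abel
  have hrep : IsEffRep v₀ (x + x') (redDeg v₀ x + redDeg v₀ x') (redDiv v₀ x + redDiv v₀ x') := by
    have hmem : redDiv v₀ x + redDiv v₀ x' -
        ((redDeg v₀ x + redDeg v₀ x' : ℕ) : ℤ) • Finsupp.single v₀ (1 : ℤ) ∈
        Divisor.degZero (K := Qb) (F := F) := by
      rw [heq]
      exact add_mem hz hz'
    refine ⟨add_nonneg h0 h0', hmem, ?_⟩
    have e : Pic0.mk (⟨_, hmem⟩ : Divisor.degZero (K := Qb) (F := F)) =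
        Pic0.mk ((⟨_, hz⟩ : Divisor.degZero (K := Qb) (F := F)) + ⟨_, hz'⟩) :=
      congrArg Pic0.mk (Subtype.ext heq)
    rw [e, Pic0.mk_add, hmk, hmk']
  have key := h (x + x') _ _ hd hrep (by
    rw [Finsupp.add_apply, redDiv_apply_self htr v₀ x, redDiv_apply_self htr v₀ x', add_zero])
  rwa [divH_add] at key

end Heights

end Fermat.Agent.S17.HB.Red
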