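import Mathlib
import Fermat.Agent.S17.HB.Contract
import Fermat.Agent.S17.HB.Red.Exit

/-!
# S17, strand HB (route beta), leaf B4 (RED): the literal of record

`Contract.RedBound N Hpl` for the place height `Hpl P := hQ (y(P))`, `y` a function on `X_0(N)`
regular off the cusp `∞` with a pole at `∞`; and the companion bound for effective
presentations (the last step of (DIVPT)).
-/

set_option autoImplicit false

namespace Fermat.Agent.S17.HB.Red

open AlgebraicCurve ModularCurve
open Fermat.Agent.S17 Fermat.Agent.S17.R Fermat.Agent.S17.H Fermat.Agent.S17.H.Glob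

local notation "Qb" => AlgebraicClosure ℚ
local notation "Fb" => modularFunctionFieldBar

/-- The contract's height of a class is the `y`-height of its reduced divisor. -/
theorem clH_eq_divH (N : ℕ) [NeZero N] (y : Fb N) (x : JZero N) :
    Contract.clH N (fun P => hQ (evalAt P y)) x = divH evalAt y (redDivInf N x) := rfl

/-- **B4 (RED), the literal of record**: `Contract.RedBound N Hpl` for `Hpl P := hQ (y(P))`. -/
theorem redBound (N : ℕ) [NeZero N] {y : Fb N} (hy : RegOff (infPlace N) y)
    (hy0 : (infPlace N).ord y < 0) :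
    Contract.RedBound N (fun P => hQ (evalAt P y)) := by
  obtain ⟨A, C, -, h⟩ := red_add (Fermat.Agent.S30.HeckeInputs.trdeg_bar N) (infPlace N) hy hy0
  exact ⟨A, C, fun x x' => h x x'⟩

/-- **(RED) for effective presentations**, in the contract's vocabulary: if
`x = [D - d ∞]` with `D ≥ 0` off `∞` and `d ≤ b`, then
`clH x ≤ A * (sum of n_P * Hpl P over D) + C`. -/
theorem clH_le_of_isEffRep (N : ℕ) [NeZero N] {y : Fb N} (hy : RegOff (infPlace N) y)
    (hy0 : (infPlace N).ord y < 0) (b : ℕ) :
    ∃ A C : ℝ, 0 ≤ A ∧ ∀ (x : JZero N) (d : ℕ) (D : Divisor Qb (Fb N)), d ≤ b →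
      IsEffRep (infPlace N) x d D → D (infPlace N) = 0 →
      Contract.clH N (fun P => hQ (evalAt P y)) x ≤
        A * Contract.divH N (fun P => hQ (evalAt P y)) D + C := by
  obtain ⟨A, C, hA, h⟩ :=
    red_of_isEffRep (Fermat.Agent.S30.HeckeInputs.trdeg_bar N) (infPlace N) hy hy0 b
  exact ⟨A, C, hA, fun x d D hd hrep hD => h x d D hd hrep hD⟩

end Fermat.Agent.S17.HB.Red
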