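import Mathlib
import Fermat.Agent.S17.HB.HeightY
import Fermat.Agent.S17.HB.Red.Inst

/-!
# S17, strand HB (route beta): the exit with (RED) discharged

`Contract.RedBound N (HeightY.Hy N x)` for every `x ∈ L(n0 ∞)` of exact pole order `n0 > 0`
at the cusp `∞`, and the exit of the strand in which the only remaining input is the point form
of (DIVPT), `Sym.PtDiv N (HeightY.Hy N x)`.
-/

set_option autoImplicit false

namespace Fermat.Agent.S17.HB.Red

open AlgebraicCurve ModularCurve
open Fermat.Agent.S17 Fermat.Agent.S17.R Fermat.Agent.S17.H Fermat.Agent.S17.H.Glob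

local notation "Qb" => AlgebraicClosure ℚ
local notation "Fb" => modularFunctionFieldBar

/-- **B4 (RED)** at the height of a coordinate `x ∈ L(n0 ∞)` of exact pole order `n0 > 0`. -/
theorem redBound_Hy (N : ℕ) [NeZero N] {n0 : ℕ} {x : Fb N} (hn0 : 0 < n0)
    (hxL : x ∈ riemannRochSpace ((n0 : ℤ) • Finsupp.single (infPlace N) (1 : ℤ)))
    (hxord : (infPlace N).ord x = -(n0 : ℤ)) : Contract.RedBound N (HeightY.Hy N x) :=
  redBound N (ChowCore.regOff_of_mem_L hxL) (by rw [hxord]; omega)

/-- **The exit of strand HB with (RED) discharged**: the contract's `HeightDescent N` from the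
point form of (DIVPT) at the height of the Galois-fixed coordinate `x`. -/
theorem heightDescent_of_ptDiv_x (N : ℕ) [NeZero N] (hN : N.Prime) (hN5 : 5 ≤ N)
    (hPT : ∀ (n0 : ℕ) (x : Fb N), 2 ≤ n0 →
      (∀ σ : Qb ≃ₐ[ℚ] Qb, arithmeticGalois (modularFunctionFieldFull N) σ • x = x) →
      x ∈ riemannRochSpace ((n0 : ℤ) • Finsupp.single (infPlace N) (1 : ℤ)) →
      (infPlace N).ord x = -(n0 : ℤ) → Sym.PtDiv N (HeightY.Hy N x)) :
    HeightDescent N :=
  HeightY.heightDescent_of_x N hN hN5 fun n0 x hn0 hfix hxL hxord =>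
    ⟨redBound_Hy N (by omega) hxL hxord, hPT n0 x hn0 hfix hxL hxord⟩

end Fermat.Agent.S17.HB.Red
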