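import Mathlib
import Fermat.Agent.S17.R.Eval
import Fermat.Agent.S17.H.Glob.Eval
import Fermat.Agent.S17.H.Glob.Compare
import Fermat.Agent.S17.H.AbsHeight.Tuple
import Fermat.Agent.S17.H.AbsHeight.GaussMahler
import Fermat.Agent.S17.HB.Red.Defs

/-!
# S17, strand HB (route beta), leaf B4 (RED), L4: the height of the pool coefficients

For an effective divisor `D` of degree `d` off `v₀` and coordinates `t l` (regular off `v₀`, with
a pole at `v₀`), the concatenation of the coefficient vectors of the monic polynomials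
`poolPoly evalAt (t l) D = ∏_P (X - t_l(P)) ^ (D P)` has height at most
`A * (y-height of D) + C`:

* Gauss–Mahler (upper half): the height of the coefficient vector of one `poolPoly` is at most
  the sum of the heights of its roots `t_l(P)` plus `d log 2`;
* COMPARE (`Glob.exists_compare` at `![t l, 1]`, `![y, 1]`): `b * hQ (t_l(P)) ≤ a_l * hQ (y(P)) + C_l`
  off `v₀`, with `a_l`, `b` the pole orders of `t l`, `y` at `v₀`;
* Segre: the concatenation of tuples that all contain the coordinate `1` is a sub-tuple of their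
  multiplication table, whose height is the sum of the heights.
-/

set_option autoImplicit false

namespace Fermat.Agent.S17.HB.Red

open AlgebraicCurve Polynomial
open Fermat.Agent.S17.R Fermat.Agent.S17.H Fermat.Agent.S17.H.Glob

local notation "Qb" => AlgebraicClosure ℚ

namespace PoolHeight

/-- The concatenation of finitely many tuples, each containing the coordinate `1`, has height at
most the sum of their heights. -/
theorem hT_concat_le {α ι : Type*} [Fintype α] [DecidableEq α] [Finite ι]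
    (x : α → ι → Qb) (i₀ : ι) (h1 : ∀ a, x a i₀ = 1) :
    hT (fun k : α × ι => x k.1 k.2) ≤ ∑ a, hT (x a) := by
  have hx : ∀ a, x a ≠ 0 := by
    intro a h
    have h2 := h1 a
    rw [h] at h2
    exact zero_ne_one h2
  rw [← Tuple.hT_fun_prod_eq hx]
  have e : (fun k : α × ι => x k.1 k.2) =
      (fun I : α → ι => ∏ a, x a (I a)) ∘
        (fun k : α × ι => Function.update (fun _ : α => i₀) k.1 k.2) := by
    funext k
    simp only [Function.comp_apply]
    rw [Finset.prod_eq_single k.1]
    · rw [Function.update_self]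
    · intro a _ ha
      rw [Function.update_of_ne ha, h1 a]
    · intro h
      exact absurd (Finset.mem_univ _) h
  rw [e]
  exact Tuple.hT_comp_le _ _

section Curve

variable {F : Type*} [Field F] [Algebra Qb F] [Algebra.EssFiniteType Qb F]

omit [Algebra.EssFiniteType Qb F] in
/-- Over an algebraically closed constant field the degree is the sum of the multiplicities. -/
theorem degree_eq_sum (htr : Algebra.trdeg Qb F = 1) (D : Divisor Qb F) :
    Divisor.degree D = ∑ P ∈ D.support, D P := by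
  unfold Divisor.degree
  rw [Finsupp.liftAddHom_apply]
  unfold Finsupp.sum
  refine Finset.sum_congr rfl fun P _ => ?_
  show AddMonoidHom.mulRight ((P.deg : ℕ) : ℤ) (D P) = D P
  rw [AddMonoidHom.mulRight_apply, Fermat.Agent.S24.FF.deg_eq_one htr P]
  simp

omit [Algebra.EssFiniteType Qb F] in
/-- The multiplicities of an effective divisor of degree `d` sum to `d`. -/
theorem sum_toNat_eq (htr : Algebra.trdeg Qb F = 1) {D : Divisor Qb F} (hD : 0 ≤ D) {d : ℕ}
    (hdeg : Divisor.degree D = d) : ∑ P ∈ D.support, (D P).toNat = d := by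
  have h1 : ((∑ P ∈ D.support, (D P).toNat : ℕ) : ℤ) = d := by
    rw [← hdeg, degree_eq_sum htr D, Nat.cast_sum]
    refine Finset.sum_congr rfl fun P _ => ?_
    exact Int.toNat_of_nonneg (Finsupp.le_def.mp hD P)
  exact_mod_cast h1

omit [Algebra.EssFiniteType Qb F] in
/-- The `y`-height of an effective divisor through the natural multiplicities. -/
theorem divH_eq_sum_toNat {D : Divisor Qb F} (hD : 0 ≤ D) (y : F) :
    divH evalAt y D = ∑ P ∈ D.support, ((D P).toNat : ℝ) * hQ (evalAt P y) := by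
  unfold divH Finsupp.sum
  refine Finset.sum_congr rfl fun P _ => ?_
  have h : (((D P).toNat : ℤ) : ℝ) = ((D P : ℤ) : ℝ) := by
    rw [Int.toNat_of_nonneg (Finsupp.le_def.mp hD P)]
  show ((D P : ℤ) : ℝ) * hQ (evalAt P y) = ((D P).toNat : ℝ) * hQ (evalAt P y)
  rw [← h]
  norm_cast

omit [Algebra.EssFiniteType Qb F] in
/-- The sum of the heights of the roots of `poolPoly`. -/
theorem sum_hQ_roots_poolPoly (t : F) (D : Divisor Qb F) :
    ((poolPoly evalAt t D).roots.map hQ).sum =
      ∑ P ∈ D.support, ((D P).toNat : ℝ) * hQ (evalAt P t) := by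
  rw [roots_poolPoly]
  have h : ∀ m : Multiset Qb, (m.map hQ).sum =
      (Multiset.sumAddMonoidHom.comp (Multiset.mapAddMonoidHom hQ)) m := fun m => rfl
  rw [h, map_sum]
  refine Finset.sum_congr rfl fun P _ => ?_
  rw [map_nsmul]
  simp [nsmul_eq_mul]

/-- COMPARE for a single function against `y`: `b * hQ (f(v)) ≤ a * hQ (y(v)) + C` off `v₀`. -/
theorem exists_hQ_le (htr : Algebra.trdeg Qb F = 1) (v₀ : Place Qb F) {y f : F}
    (hy : RegOff v₀ y) (hf : RegOff v₀ f) {a b : ℕ} (ha : 0 < a) (hb : 0 < b)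
    (hfa : v₀.ord f = -(a : ℤ)) (hyb : v₀.ord y = -(b : ℤ)) :
    ∃ C : ℝ, ∀ v : Place Qb F, v ≠ v₀ →
      (b : ℝ) * hQ (evalAt v f) ≤ (a : ℝ) * hQ (evalAt v y) + C := by
  have hev : IsEval (evalAt (K := Qb) (F := F)) := isEval_evalAt htr
  have hreg : ∀ g : F, RegOff v₀ g → ∀ i, RegOff v₀ ((![g, 1] : Fin 2 → F) i) := by
    intro g hg i
    fin_cases i
    · exact hg
    · exact RegOff.one
  have hord : ∀ (g : F) (c : ℕ), v₀.ord g = -(c : ℤ) →
      ∀ i, -(c : ℤ) ≤ v₀.ord ((![g, 1] : Fin 2 → F) i) := by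
    intro g c hg i
    fin_cases i
    · exact hg.ge
    · show -(c : ℤ) ≤ v₀.ord (1 : F)
      rw [Place.ord_one]
      omega
  obtain ⟨C, hC⟩ := exists_compare htr v₀ hev (a := a) (b := b) ![f, 1] ![y, 1]
    (hreg f hf) (hord f a hfa) ⟨1, rfl⟩ ⟨0, hfa⟩ ha
    (hreg y hy) (hord y b hyb) ⟨1, rfl⟩ ⟨0, hyb⟩ hb
  refine ⟨C, fun v hv => ?_⟩
  have hval : ∀ g : F, hT (fun i => evalAt v ((![g, 1] : Fin 2 → F) i)) = hQ (evalAt v g) := by
    intro g
    have e : (fun i => evalAt v ((![g, 1] : Fin 2 → F) i)) = ![evalAt v g, 1] := by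
      funext i
      fin_cases i
      · rfl
      · exact hev.map_one v
    rw [e]
    rfl
  have h := hC v hv
  rw [hval f, hval y] at h
  have h2 := (abs_le.mp h).2
  linarith

end Curve

end PoolHeight

section Heights

variable {F : Type*} [Field F] [Algebra Qb F] [Algebra.EssFiniteType Qb F]

/-- **L4**: the height of the coefficients of the pool polynomials of an effective divisor `D` of
degree `d` off `v₀` is at most `A * (y-height of D) + C`. -/
theorem exists_hT_poolCoeff_le (htr : Algebra.trdeg Qb F = 1) (v₀ : Place Qb F) {y : F}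
    (hy : RegOff v₀ y) (hy0 : v₀.ord y < 0) {q : ℕ} (t : Fin (q + 1) → F)
    (ht : ∀ l, t l ∈ regOff v₀) (ht0 : ∀ l, v₀.ord (t l) < 0) (d : ℕ) :
    ∃ A C : ℝ, 0 ≤ A ∧ ∀ D : Divisor Qb F, 0 ≤ D → D v₀ = 0 → Divisor.degree D = d →
      hT (fun k : Fin (q + 1) × Fin (d + 1) => (poolPoly evalAt (t k.1) D).coeff (k.2 : ℕ)) ≤
        A * divH evalAt y D + C := by
  classical
  -- the pole orders
  obtain ⟨b, hb, hb0⟩ : ∃ b : ℕ, v₀.ord y = -(b : ℤ) ∧ 0 < b :=
    ⟨(-(v₀.ord y)).toNat, by omega, by omega⟩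
  have ha : ∀ l, ∃ a : ℕ, v₀.ord (t l) = -(a : ℤ) ∧ 0 < a := fun l =>
    ⟨(-(v₀.ord (t l))).toNat, by have := ht0 l; omega, by have := ht0 l; omega⟩
  choose a ha ha0 using ha
  -- COMPARE, one constant for every `l`
  have hcmp : ∀ l, ∃ C : ℝ, ∀ v : Place Qb F, v ≠ v₀ →
      (b : ℝ) * hQ (evalAt v (t l)) ≤ (a l : ℝ) * hQ (evalAt v y) + C := fun l =>
    PoolHeight.exists_hQ_le htr v₀ hy (ht l) (ha0 l) hb0 (ha l) hb
  choose Cc hCc using hcmp
  have hbR : (0 : ℝ) < b := by exact_mod_cast hb0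
  refine ⟨∑ l, (a l : ℝ) / b, ∑ l, (|Cc l| * d / b + d * Real.log 2),
    Finset.sum_nonneg fun l _ => div_nonneg (Nat.cast_nonneg _) hbR.le, fun D hD hDv hdeg => ?_⟩
  have hsum := PoolHeight.sum_toNat_eq htr hD hdeg
  have hH := PoolHeight.divH_eq_sum_toNat hD y
  have hH0 : 0 ≤ divH evalAt y D := divH_nonneg evalAt y hD
  -- the polynomials are monic of degree `d`
  have hnat : ∀ l, (poolPoly evalAt (t l) D).natDegree = d := fun l => by
    rw [natDegree_poolPoly, hsum]
  have hlast : ∀ l, (poolPoly evalAt (t l) D).coeff ((Fin.last d : Fin (d + 1)) : ℕ) = 1 := by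
    intro l
    have h := (poolPoly_monic evalAt (t l) D).coeff_natDegree
    rw [hnat l] at h
    exact h
  -- Segre
  have h1 := PoolHeight.hT_concat_le
    (fun (l : Fin (q + 1)) (i : Fin (d + 1)) => (poolPoly evalAt (t l) D).coeff (i : ℕ))
    (Fin.last d) hlast
  refine h1.trans ?_
  -- each block
  have hblock : ∀ l, hT (fun i : Fin (d + 1) => (poolPoly evalAt (t l) D).coeff (i : ℕ)) ≤
      (a l : ℝ) / b * divH evalAt y D + (|Cc l| * d / b + d * Real.log 2) := by
    intro l
    have hGM := hT_coeffVec_le_sum_hQ_roots (poolPoly_ne_zero evalAt (t l) D)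
      (hnat l).le
    rw [PoolHeight.sum_hQ_roots_poolPoly] at hGM
    -- COMPARE, summed over the support
    have hS : (b : ℝ) * ∑ P ∈ D.support, ((D P).toNat : ℝ) * hQ (evalAt P (t l)) ≤
        (a l : ℝ) * divH evalAt y D + Cc l * d := by
      have hd' : ((d : ℕ) : ℝ) = ∑ P ∈ D.support, ((D P).toNat : ℝ) := by
        rw [← hsum, Nat.cast_sum]
      rw [hH, hd', Finset.mul_sum, Finset.mul_sum, Finset.mul_sum, ← Finset.sum_add_distrib]
      refine Finset.sum_le_sum fun P hP => ?_
      have hPv : P ≠ v₀ := by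
        rintro rfl
        exact (Finsupp.mem_support_iff.mp hP) hDv
      have h2 := hCc l P hPv
      have h3 : (0 : ℝ) ≤ ((D P).toNat : ℝ) := Nat.cast_nonneg _
      nlinarith [mul_le_mul_of_nonneg_left h2 h3]
    have hC1 : Cc l * d ≤ |Cc l| * d :=
      mul_le_mul_of_nonneg_right (le_abs_self _) (Nat.cast_nonneg _)
    have hS' : ∑ P ∈ D.support, ((D P).toNat : ℝ) * hQ (evalAt P (t l)) ≤
        (a l : ℝ) / b * divH evalAt y D + |Cc l| * d / b := by
      rw [div_mul_eq_mul_div, ← add_div, le_div_iff₀ hbR]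
      linarith
    linarith
  calc ∑ l, hT (fun i : Fin (d + 1) => (poolPoly evalAt (t l) D).coeff (i : ℕ))
      ≤ ∑ l, ((a l : ℝ) / b * divH evalAt y D + (|Cc l| * d / b + d * Real.log 2)) :=
        Finset.sum_le_sum fun l _ => hblock l
    _ = (∑ l, (a l : ℝ) / b) * divH evalAt y D + ∑ l, (|Cc l| * d / b + d * Real.log 2) := by
        rw [Finset.sum_add_distrib, Finset.sum_mul]

end Heights

end Fermat.Agent.S17.HB.Red
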